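import Fermat.Agent.EC.Quotient.Reduce
import Fermat.Agent.EC.Torsion.Main
import Fermat.Agent.Gal.Residue
import Mathlib.FieldTheory.IsAlgClosed.AlgebraicClosure
import Mathlib.FieldTheory.RatFunc.Basic
import Fermat.Agent.EC.Reduction.VariableChange

/-!
The formulas of Vélu define a homomorphism to an elliptic curve with the given finite subgroup as
kernel, over an algebraically closed field of characteristic zero.

Identities between the images are proved for a generic point: the expressions involved are integral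
at every place of the constants, hence constant, and are evaluated at the place at infinity.
-/

set_option autoImplicit false

noncomputable section

namespace Fermat.Agent.EC.Quotient

open WeierstrassCurve Finset Fermat.Agent.EC.Reduction
open scoped Classical

universe u

section Natural

variable {K L : Type*} [Field K] [Field L] [DecidableEq K] [DecidableEq L]
  (V : WeierstrassCurve K) (f : K →+* L) {G : Type*} [AddCommGroup G] [Fintype G]
  (ι : G →+ V.toAffine.Point)

/-- The subgroup after base change. -/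
def mapSub : G →+ (V.map f).toAffine.Point := (mapPt V f).comp ι

omit [Fintype G] in
theorem mapSub_apply (u : G) : mapSub V f ι u = mapPt V f (ι u) := rfl

omit [Fintype G] in
theorem mapSub_injective (hι : Function.Injective ι) : Function.Injective (mapSub V f ι) :=
  (mapPt_injective V f).comp hι

omit [Fintype G] in
theorem Outside.map {P : V.toAffine.Point} (h : Outside V ι P) :
    Outside (V.map f) (mapSub V f ι) (mapPt V f P) :=
  fun u hu => h u (mapPt_injective V f hu)

theorem xs_map : xs (V.map f) (mapSub V f ι) = (xs V ι).image f := by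
  rw [xs, xs, image_image]
  exact image_congr fun u _ => cx_mapPt V f (ι u)

omit [DecidableEq K] [DecidableEq L] in
theorem tt_map (v : K) : tt (V.map f) (f v) = f (tt V v) := by
  simp [tt, map_ofNat]

omit [DecidableEq K] [DecidableEq L] in
theorem psi_map (v : K) : psi (V.map f) (f v) = f (psi V v) := by
  simp [psi, map_ofNat]

theorem qT_map : qT (V.map f) (mapSub V f ι) = f (qT V ι) := by
  rw [qT, qT, xs_map, sum_image f.injective.injOn, map_sum]
  exact sum_congr rfl fun v _ => tt_map V f v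

theorem qW_map : qW (V.map f) (mapSub V f ι) = f (qW V ι) := by
  rw [qW, qW, xs_map, sum_image f.injective.injOn, map_sum]
  exact sum_congr rfl fun v _ => by rw [tt_map, psi_map, map_add, map_mul]

theorem quot_map : quot (V.map f) (mapSub V f ι) = (quot V ι).map f := by
  ext <;> simp only [quot, qT_map, qW_map, map_a₁, map_a₂, map_a₃, map_a₄, map_a₆, map_b₂,
    map_sub, map_mul, map_ofNat]

theorem qX_map (P : V.toAffine.Point) :
    qX (V.map f) (mapSub V f ι) (mapPt V f P) = f (qX V ι P) := by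
  simp only [qX, map_sub, map_sum, mapSub_apply, ← map_add, cx_mapPt]

theorem qY_map (P : V.toAffine.Point) :
    qY (V.map f) (mapSub V f ι) (mapPt V f P) = f (qY V ι P) := by
  simp only [qY, map_sub, map_sum, mapSub_apply, ← map_add, cy_mapPt]

theorem qL_map (P : V.toAffine.Point) :
    qL (V.map f) (mapSub V f ι) (mapPt V f P) = f (qL V ι P) := by
  simp only [qL, map_sum, mapSub_apply, ← map_add, cl_mapPt]

theorem defect_map (P : V.toAffine.Point) :
    defect (V.map f) (mapSub V f ι) (mapPt V f P) = f (defect V ι P) := by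
  simp only [defect, qL_map, qX_map, qT_map, qW_map, map_b₂, map_b₄, map_b₆, map_sub, map_add,
    map_mul, map_pow, map_ofNat]

/-- Base change of points of the quotient curve. -/
def quotMap : (quot V ι).toAffine.Point →+ (quot (V.map f) (mapSub V f ι)).toAffine.Point :=
  (pointCongr (quot_map V f ι).symm).toAddMonoidHom.comp (mapPt (quot V ι) f)

theorem quotMap_some {x y : K} (h : (quot V ι).toAffine.Nonsingular x y) :
    ∃ h', quotMap V f ι (.some x y h) = .some (f x) (f y) h' := by
  refine ⟨?_, ?_⟩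
  · rw [quot_map]; exact (Affine.map_nonsingular (W := (quot V ι).toAffine) f.injective x y).mpr h
  · show pointCongr _ (mapPt (quot V ι) f (.some x y h)) = _
    rw [mapPt_some, pointCongr_some]

theorem quotMap_injective : Function.Injective (quotMap V f ι) :=
  (pointCongr (quot_map V f ι).symm).injective.comp (mapPt_injective (quot V ι) f)

end Natural

section Generic

variable {K : Type u} [Field K] [DecidableEq K]

/-- An algebraically closed extension with a transcendental element. -/
abbrev GenField (K : Type u) [Field K] : Type u := AlgebraicClosure (RatFunc K)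

/-- The transcendental element. -/
def genX (K : Type u) [Field K] : GenField K :=
  algebraMap (RatFunc K) (GenField K) RatFunc.X

omit [DecidableEq K] in
theorem transcendental_genX : Transcendental K (genX K) :=
  (transcendental_algebraMap_iff (algebraMap (RatFunc K) (GenField K)).injective).mpr
    RatFunc.transcendental_X

variable (V : WeierstrassCurve K)

omit [DecidableEq K] in
theorem exists_gen : ∃ (y : GenField K),
    (V.map (algebraMap K (GenField K))).toAffine.Equation (genX K) y := by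
  set W := V.map (algebraMap K (GenField K))
  obtain ⟨y, hy⟩ := IsAlgClosed.exists_root (k := GenField K)
    (Polynomial.X ^ 2 + Polynomial.C (W.a₁ * genX K + W.a₃) * Polynomial.X -
      Polynomial.C (genX K ^ 3 + W.a₂ * genX K ^ 2 + W.a₄ * genX K + W.a₆)) (by
        intro h
        have hd := Polynomial.natDegree_eq_of_degree_eq_some (p := Polynomial.X ^ 2 +
          Polynomial.C (W.a₁ * genX K + W.a₃) * Polynomial.X -
          Polynomial.C (genX K ^ 3 + W.a₂ * genX K ^ 2 + W.a₄ * genX K + W.a₆)) (n := 0) h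
        have hd2 : (Polynomial.X ^ 2 + Polynomial.C (W.a₁ * genX K + W.a₃) * Polynomial.X -
          Polynomial.C (genX K ^ 3 + W.a₂ * genX K ^ 2 + W.a₄ * genX K + W.a₆) :
            Polynomial (GenField K)).natDegree = 2 := by compute_degree!
        omega)
  refine ⟨y, ?_⟩
  rw [Affine.equation_iff]
  simp only [Polynomial.IsRoot, Polynomial.eval_sub, Polynomial.eval_add, Polynomial.eval_pow,
    Polynomial.eval_mul, Polynomial.eval_X, Polynomial.eval_C] at hy
  linear_combination hy

omit [DecidableEq K] in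
theorem map_Δ_ne_zero {L : Type*} [Field L] (f : K →+* L) (hΔ : V.Δ ≠ 0) : (V.map f).Δ ≠ 0 := by
  rw [map_Δ]; exact (map_ne_zero f).mpr hΔ

/-- The generic point. -/
def genPoint (hΔ : V.Δ ≠ 0) : (V.map (algebraMap K (GenField K))).toAffine.Point :=
  .some (genX K) (exists_gen V).choose ((Affine.equation_iff_nonsingular_of_Δ_ne_zero
    (map_Δ_ne_zero V _ hΔ)).mp (exists_gen V).choose_spec)

variable {V}

omit [DecidableEq K] in
theorem reduces_const (A : ValuationSubring (GenField K))
    (hA : ∀ a : K, algebraMap K (GenField K) a ∈ A) :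
    Reduces (IsLocalRing.residue A) (V.map (algebraMap K (GenField K))) (V.map (constHom A hA)) :=
  ⟨res_const A hA _, res_const A hA _, res_const A hA _, res_const A hA _, res_const A hA _⟩

theorem redTo_const (A : ValuationSubring (GenField K))
    (hA : ∀ a : K, algebraMap K (GenField K) a ∈ A) (P : V.toAffine.Point) :
    RedTo (IsLocalRing.residue A) (V.map (constHom A hA)) (mapPt V (algebraMap K (GenField K)) P)
      (mapPt V (constHom A hA) P) := by
  rcases P with _ | ⟨x, y, h⟩
  · exact RedTo.zero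
  · exact RedTo.of_res (res_const A hA x) (res_const A hA y)

omit [DecidableEq K] in
theorem charZero_residue [CharZero K] (A : ValuationSubring (GenField K))
    (hA : ∀ a : K, algebraMap K (GenField K) a ∈ A) : CharZero (IsLocalRing.ResidueField A) :=
  charZero_of_injective_ringHom (constHom A hA).injective

variable {G : Type*} [AddCommGroup G] [Fintype G] {ι : G →+ V.toAffine.Point}

local notation "ιL" => mapSub V (algebraMap K (GenField K)) ι

omit [Fintype G] in
theorem outside_genPoint (hΔ : V.Δ ≠ 0) :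
    Outside (V.map (algebraMap K (GenField K))) ιL (genPoint V hΔ) := by
  intro u hu
  have h := congrArg (cx _) hu
  rw [mapSub_apply, cx_mapPt] at h
  exact transcendental_genX (h ▸ isAlgebraic_algebraMap _)

omit [DecidableEq K] in
theorem res_genX_of_nonunit {A : ValuationSubring (GenField K)}
    {hA : ∀ a : K, algebraMap K (GenField K) a ∈ A} {c : K}
    (h : genX K - algebraMap K (GenField K) c ∈ A.nonunits) :
    Res (IsLocalRing.residue A) (genX K) (constHom A hA c) := by
  obtain ⟨hm, hn⟩ := ValuationSubring.mem_nonunits_iff_exists_mem_maximalIdeal.mp h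
  have h0 : Res (IsLocalRing.residue A) (genX K - algebraMap K (GenField K) c) 0 :=
    ⟨hm, (IsLocalRing.residue_eq_zero_iff _).mpr hn⟩
  simpa using h0.add (res_const A hA c)

variable [IsAlgClosed K] [CharZero K]
variable (hΔ : V.Δ ≠ 0) (hι : Function.Injective ι) (hodd : Odd (Nat.card G))

include hΔ hι hodd in
theorem defect_genPoint :
    defect (V.map (algebraMap K (GenField K))) ιL (genPoint V hΔ) = 0 := by
  have hout := outside_genPoint (ι := ι) hΔ
  have key : ∀ (A : ValuationSubring (GenField K))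
      (hA : ∀ a : K, algebraMap K (GenField K) a ∈ A),
      defect (V.map (algebraMap K (GenField K))) ιL (genPoint V hΔ) ∈ A ∧
      (genX K ∉ A → Res (IsLocalRing.residue A)
        (defect (V.map (algebraMap K (GenField K))) ιL (genPoint V hΔ)) 0) := by
    intro A hA
    have hr : ∀ u, RedTo (IsLocalRing.residue A) (V.map (constHom A hA)) (ιL u)
        (mapSub V (constHom A hA) ι u) := fun u => redTo_const A hA (ι u)
    have hι₀ := mapSub_injective V (constHom A hA) ι hι
    obtain ⟨Q, hQ⟩ := exists_redTo_of_Δ_ne_zero (reduces_const A hA)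
      (map_Δ_ne_zero V _ hΔ) (genPoint V hΔ)
    by_cases hQout : Outside (V.map (constHom A hA)) (mapSub V (constHom A hA) ι) Q
    · refine ⟨(res_defect (reduces_const A hA) hr hι₀ hQ hQout).mem, fun hX => ?_⟩
      exact absurd (hQ.unique (RedTo.of_notMem hX)) hQout.ne_zero
    · simp only [Outside, not_forall, not_not] at hQout
      obtain ⟨u, rfl⟩ := hQout
      have h := redTo_add (reduces_const A hA) hr hQ (-u)
      rw [map_neg, map_neg, add_neg_cancel] at h
      have hne := hout.add_ne_zero (-u)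
      rw [map_neg] at hne
      have := (infinity (reduces_const A hA) hr hι₀ hodd h hne).2
      rw [← map_neg, defect_add] at this
      exact ⟨this.mem, fun _ => this⟩
  obtain ⟨c, hc⟩ := mem_range_of_forall_mem fun A hA => (key A hA).1
  obtain ⟨A, hA, hX⟩ := exists_place_pole (K := K) transcendental_genX
  have h0 := (key A hA).2 hX
  rw [← hc] at h0 ⊢
  rw [(map_eq_zero (constHom A hA)).mp ((res_const A hA c).unique h0), map_zero]

include hΔ hι hodd in
theorem defect_eq_zero {P : V.toAffine.Point} (hP : Outside V ι P) : defect V ι P = 0 := by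
  obtain ⟨A, hA, hX⟩ := exists_place (K := K) transcendental_genX (cx V P)
  have hXres := res_genX_of_nonunit (hA := hA) hX
  have hr : ∀ u, RedTo (IsLocalRing.residue A) (V.map (constHom A hA)) (ιL u)
      (mapSub V (constHom A hA) ι u) := fun u => redTo_const A hA (ι u)
  obtain ⟨Q, hQ⟩ := exists_redTo_of_Δ_ne_zero (reduces_const A hA)
    (map_Δ_ne_zero V _ hΔ) (genPoint V hΔ)
  have hQ0 : Q ≠ 0 := by
    rintro rfl
    exact cx_notMem_of_redTo_zero hQ (Affine.Point.some_ne_zero _) hXres.mem
  have hcx := (res_coords_of_redTo hQ hQ0).1.unique hXres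
  rw [← cx_mapPt] at hcx
  have hP' := hP.map V (constHom A hA) ι
  have key : defect (V.map (constHom A hA)) (mapSub V (constHom A hA) ι) Q =
      constHom A hA (defect V ι P) ∧
      Outside (V.map (constHom A hA)) (mapSub V (constHom A hA) ι) Q := by
    rcases eq_or_eq_neg_of_cx_eq _ hQ0 hP'.ne_zero hcx with rfl | rfl
    · exact ⟨defect_map V _ ι P, hP'⟩
    · exact ⟨(defect_neg _ _ _).trans (defect_map V _ ι P), hP'.neg⟩
  have h := res_defect (reduces_const A hA) hr (mapSub_injective V _ ι hι) hQ key.2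
  rw [defect_genPoint hΔ hι hodd, key.1] at h
  exact (map_eq_zero (constHom A hA)).mp (h.unique Res.zero)

include hΔ hι hodd in
theorem psi_qX {P : V.toAffine.Point} (hP : Outside V ι P) :
    qL V ι P ^ 2 = psi (quot V ι) (qX V ι P) := by
  rw [quot_psi]
  exact sub_eq_zero.mp (defect_eq_zero hΔ hι hodd hP)

omit [Fintype G] [IsAlgClosed K] [CharZero K] in
include hι hodd in
theorem outside_of_two_nsmul {T : V.toAffine.Point} (hT : T ≠ 0) (h2 : 2 • T = 0) :
    Outside V ι T := by
  intro u hu
  subst hu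
  refine ne_neg_self hodd (u := u) (fun h => hT (by rw [h, map_zero])) (hι ?_)
  rw [map_neg]
  exact add_eq_zero_iff_eq_neg.mp (by rwa [← two_nsmul])

include hΔ hι hodd in
/-- The three roots of the completed square of the quotient. -/
theorem exists_roots : ∃ T : Fin 3 → V.toAffine.Point,
    (∀ i, T i ≠ 0 ∧ 2 • T i = 0) ∧ Function.Injective (fun i => qX V ι (T i)) ∧
      ∀ i, psi (quot V ι) (qX V ι (T i)) = 0 := by
  have : V.toAffine.IsElliptic := ⟨hΔ.isUnit⟩
  have h2 : ((2 : ℕ) : K) ≠ 0 := by norm_num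
  have hcard := Torsion.natCard_setOf_nsmul_eq_zero (W := V.toAffine) h2
  have hfin : {P : V.toAffine.Point | 2 • P = 0}.Finite :=
    Torsion.finite_setOf_nsmul_eq_zero (W := V.toAffine) h2
  have h3 : 2 < (hfin.toFinset.erase 0).card := by
    rw [card_erase_of_mem (by simp), ← Nat.card_eq_card_finite_toFinset hfin]
    rw [show Nat.card {P : V.toAffine.Point | 2 • P = 0} = 4 from hcard]
    norm_num
  obtain ⟨a, ha, b, hb, c, hc, hab, hac, hbc⟩ := two_lt_card.mp h3
  refine ⟨![a, b, c], ?_, ?_, ?_⟩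
  · intro i; fin_cases i <;> simp_all
  · have hne : ∀ T T' : V.toAffine.Point, T ≠ 0 → 2 • T = 0 → T' ≠ 0 → 2 • T' = 0 →
        qX V ι T = qX V ι T' → T = T' := by
      intro T T' hT hT2 hT' hT'2 he
      have hn : -T = T := (add_eq_zero_iff_eq_neg.mp (by rwa [← two_nsmul])).symm
      obtain ⟨u, hu⟩ := exists_of_qX_eq hι hodd (outside_of_two_nsmul hι hodd hT hT2)
        (outside_of_two_nsmul hι hodd hT' hT'2) he
      rw [hn, or_self] at hu
      have hu0 : u = 0 := by
        by_contra hu0
        refine ne_neg_self hodd hu0 (hι ?_)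
        rw [map_neg]
        refine add_eq_zero_iff_eq_neg.mp ?_
        rw [hu, nsmul_add, hT2, zero_add, two_nsmul] at hT'2
        exact hT'2
      rw [hu, hu0, map_zero, add_zero]
    simp only [mem_erase, Set.Finite.mem_toFinset, Set.mem_ofPred_eq] at ha hb hc
    intro i j h
    fin_cases i <;> fin_cases j <;>
      first
        | rfl
        | exact absurd (hne _ _ ha.1 ha.2 hb.1 hb.2 h) hab
        | exact absurd (hne _ _ ha.1 ha.2 hc.1 hc.2 h) hac
        | exact absurd (hne _ _ hb.1 hb.2 hc.1 hc.2 h) hbc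
        | exact absurd (hne _ _ ha.1 ha.2 hb.1 hb.2 h.symm) hab
        | exact absurd (hne _ _ ha.1 ha.2 hc.1 hc.2 h.symm) hac
        | exact absurd (hne _ _ hb.1 hb.2 hc.1 hc.2 h.symm) hbc
  · intro i
    have hi : ![a, b, c] i ≠ 0 ∧ 2 • ![a, b, c] i = 0 := by fin_cases i <;> simp_all
    rw [← psi_qX hΔ hι hodd (outside_of_two_nsmul hι hodd hi.1 hi.2)]
    have hn : -![a, b, c] i = ![a, b, c] i :=
      (add_eq_zero_iff_eq_neg.mp (by rw [← two_nsmul]; exact hi.2)).symm
    have := qL_neg V ι (![a, b, c] i)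
    rw [hn] at this
    have : qL V ι (![a, b, c] i) = 0 := by linear_combination this / 2
    rw [this]; ring

omit [DecidableEq K] [IsAlgClosed K] in
theorem three_roots {W : WeierstrassCurve K} {e₁ e₂ e₃ : K} (h₁ : psi W e₁ = 0) (h₂ : psi W e₂ = 0)
    (h₃ : psi W e₃ = 0) (h₁₂ : e₁ ≠ e₂) (h₁₃ : e₁ ≠ e₃) (h₂₃ : e₂ ≠ e₃) :
    W.Δ ≠ 0 ∧ ∀ z, psi W z = 0 → z = e₁ ∨ z = e₂ ∨ z = e₃ := by
  simp only [psi] at h₁ h₂ h₃ ⊢
  have q₁ : 4 * (e₁ ^ 2 + e₁ * e₂ + e₂ ^ 2) + W.b₂ * (e₁ + e₂) + 2 * W.b₄ = 0 :=
    (mul_eq_zero.mp (show (e₁ - e₂) * (4 * (e₁ ^ 2 + e₁ * e₂ + e₂ ^ 2) + W.b₂ * (e₁ + e₂)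
      + 2 * W.b₄) = 0 by linear_combination h₁ - h₂)).resolve_left (sub_ne_zero.mpr h₁₂)
  have q₂ : 4 * (e₁ ^ 2 + e₁ * e₃ + e₃ ^ 2) + W.b₂ * (e₁ + e₃) + 2 * W.b₄ = 0 :=
    (mul_eq_zero.mp (show (e₁ - e₃) * (4 * (e₁ ^ 2 + e₁ * e₃ + e₃ ^ 2) + W.b₂ * (e₁ + e₃)
      + 2 * W.b₄) = 0 by linear_combination h₁ - h₃)).resolve_left (sub_ne_zero.mpr h₁₃)
  have r₂ : W.b₂ = -4 * (e₁ + e₂ + e₃) := by
    have := (mul_eq_zero.mp (show (e₂ - e₃) * (4 * (e₁ + e₂ + e₃) + W.b₂) = 0 by
      linear_combination q₁ - q₂)).resolve_left (sub_ne_zero.mpr h₂₃)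
    linear_combination this
  have r₄ : W.b₄ = 2 * (e₁ * e₂ + e₁ * e₃ + e₂ * e₃) := by
    rw [r₂] at q₁
    linear_combination q₁ / 2
  have r₆ : W.b₆ = -4 * (e₁ * e₂ * e₃) := by
    rw [r₂, r₄] at h₁
    linear_combination h₁
  constructor
  · have hb := W.b_relation
    have h : W.Δ = 16 * ((e₁ - e₂) * (e₁ - e₃) * (e₂ - e₃)) ^ 2 := by
      have h8 : W.b₈ = (W.b₂ * W.b₆ - W.b₄ ^ 2) / 4 := by linear_combination hb / 4
      rw [WeierstrassCurve.Δ, h8, r₂, r₄, r₆]
      ring
    rw [h]
    simp [sub_ne_zero, h₁₂, h₁₃, h₂₃]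
  · intro z hz
    have : 4 * ((z - e₁) * (z - e₂) * (z - e₃)) = 0 := by
      rw [r₂, r₄, r₆] at hz
      linear_combination hz
    simpa [sub_eq_zero, or_assoc] using this

include hΔ hι hodd in
theorem quot_Δ_ne_zero : (quot V ι).Δ ≠ 0 := by
  obtain ⟨T, -, hinj, hroot⟩ := exists_roots hΔ hι hodd
  exact (three_roots (hroot 0) (hroot 1) (hroot 2) (fun h => absurd (hinj h) (by decide))
    (fun h => absurd (hinj h) (by decide)) (fun h => absurd (hinj h) (by decide))).1

include hΔ hι hodd in
theorem exists_two_torsion_of_psi {z : K} (hz : psi (quot V ι) z = 0) :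
    ∃ T : V.toAffine.Point, T ≠ 0 ∧ 2 • T = 0 ∧ qX V ι T = z := by
  obtain ⟨T, hT, hinj, hroot⟩ := exists_roots hΔ hι hodd
  rcases (three_roots (hroot 0) (hroot 1) (hroot 2) (fun h => absurd (hinj h) (by decide))
    (fun h => absurd (hinj h) (by decide)) (fun h => absurd (hinj h) (by decide))).2 z hz
    with h | h | h
  exacts [⟨T 0, (hT 0).1, (hT 0).2, h.symm⟩, ⟨T 1, (hT 1).1, (hT 1).2, h.symm⟩,
    ⟨T 2, (hT 2).1, (hT 2).2, h.symm⟩]

include hΔ hι hodd in
theorem quot_equation {P : V.toAffine.Point} (hP : Outside V ι P) :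
    (quot V ι).toAffine.Nonsingular (qX V ι P) (qY V ι P) := by
  rw [← Affine.equation_iff_nonsingular_of_Δ_ne_zero (quot_Δ_ne_zero hΔ hι hodd),
    Affine.equation_iff]
  have h := psi_qX hΔ hι hodd hP
  rw [qL_eq_qY hι hP] at h
  simp only [psi, b₂, b₄, b₆] at h
  rw [show V.a₁ = (quot V ι).a₁ from rfl, show V.a₃ = (quot V ι).a₃ from rfl] at h
  linear_combination h / 4

/-- The map given by the formulas of Vélu. -/
def phiFun (P : V.toAffine.Point) : (quot V ι).toAffine.Point :=
  if h : Outside V ι P then .some _ _ (quot_equation hΔ hι hodd h) else 0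

theorem phiFun_of_outside {P : V.toAffine.Point} (h : Outside V ι P) :
    phiFun hΔ hι hodd P = .some _ _ (quot_equation hΔ hι hodd h) := dif_pos h

theorem phiFun_ι (u : G) : phiFun hΔ hι hodd (ι u) = 0 := dif_neg fun h => h u rfl

theorem phiFun_eq_zero_iff (P : V.toAffine.Point) :
    phiFun hΔ hι hodd P = 0 ↔ ∃ u, P = ι u := by
  constructor
  · intro h
    by_contra hcon
    push Not at hcon
    rw [phiFun_of_outside hΔ hι hodd hcon] at h
    exact Affine.Point.some_ne_zero _ h
  · rintro ⟨u, rfl⟩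
    exact phiFun_ι hΔ hι hodd u

theorem phiFun_add_ι (P : V.toAffine.Point) (w : G) :
    phiFun hΔ hι hodd (P + ι w) = phiFun hΔ hι hodd P := by
  by_cases h : Outside V ι P
  · rw [phiFun_of_outside _ _ _ h, phiFun_of_outside _ _ _ (h.add w)]
    simp [qX_add, qY_add]
  · simp only [Outside, not_forall, not_not] at h
    obtain ⟨u, rfl⟩ := h
    rw [← map_add, phiFun_ι, phiFun_ι]

theorem phiFun_neg (P : V.toAffine.Point) :
    phiFun hΔ hι hodd (-P) = -phiFun hΔ hι hodd P := by
  by_cases h : Outside V ι P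
  · rw [phiFun_of_outside _ _ _ h, phiFun_of_outside _ _ _ h.neg, Affine.Point.neg_some]
    simp only [Affine.Point.some.injEq, qX_neg, true_and]
    have h1 := qL_eq_qY hι h
    have h2 := qL_eq_qY hι h.neg
    rw [qL_neg, qX_neg] at h2
    simp only [Affine.negY, quot]
    linear_combination (-h1 - h2) / 2
  · simp only [Outside, not_forall, not_not] at h
    obtain ⟨u, rfl⟩ := h
    rw [← map_neg, phiFun_ι, phiFun_ι, neg_zero]

theorem exists_of_phiFun_eq {P P' : V.toAffine.Point}
    (h : phiFun hΔ hι hodd P = phiFun hΔ hι hodd P') : ∃ u, P' = P + ι u := by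
  by_cases hP : Outside V ι P
  swap
  · simp only [Outside, not_forall, not_not] at hP
    obtain ⟨u, rfl⟩ := hP
    rw [phiFun_ι, eq_comm, phiFun_eq_zero_iff] at h
    obtain ⟨w, rfl⟩ := h
    exact ⟨w - u, by rw [map_sub, add_sub_cancel]⟩
  by_cases hP' : Outside V ι P'
  swap
  · simp only [Outside, not_forall, not_not] at hP'
    obtain ⟨u, rfl⟩ := hP'
    rw [phiFun_ι, phiFun_eq_zero_iff] at h
    obtain ⟨w, hw⟩ := h
    exact absurd hw (hP w)
  rw [phiFun_of_outside _ _ _ hP, phiFun_of_outside _ _ _ hP', Affine.Point.some.injEq] at h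
  obtain ⟨u, hu | hu⟩ := exists_of_qX_eq hι hodd hP hP' h.1
  · exact ⟨u, hu⟩
  have h0 : qL V ι P = 0 := by
    have e : qL V ι P' = -qL V ι P := by rw [hu, qL_add, qL_neg]
    rw [qL_eq_qY hι hP', ← h.1, ← h.2, ← qL_eq_qY hι hP] at e
    linear_combination e / 2
  have hz := psi_qX hΔ hι hodd hP
  rw [h0, zero_pow two_ne_zero] at hz
  obtain ⟨T, hT0, hT2, hT⟩ := exists_two_torsion_of_psi hΔ hι hodd hz.symm
  have hn : -T = T := (add_eq_zero_iff_eq_neg.mp (by rwa [← two_nsmul])).symm
  obtain ⟨w, hw⟩ := exists_of_qX_eq hι hodd (outside_of_two_nsmul hι hodd hT0 hT2) hP hT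
  rw [hn, or_self] at hw
  refine ⟨u - 2 • w, ?_⟩
  rw [hu, map_sub, map_nsmul, hw, two_nsmul, neg_add, hn]
  abel

theorem phiFun_map {L : Type*} [Field L] [DecidableEq L] [IsAlgClosed L] [CharZero L]
    (f : K →+* L) (P : V.toAffine.Point) :
    phiFun (map_Δ_ne_zero V f hΔ) (mapSub_injective V f ι hι) hodd (mapPt V f P) =
      quotMap V f ι (phiFun hΔ hι hodd P) := by
  by_cases h : Outside V ι P
  · rw [phiFun_of_outside _ _ _ h, phiFun_of_outside _ _ _ (h.map V f ι)]
    obtain ⟨h', he⟩ := quotMap_some V f ι (quot_equation hΔ hι hodd h)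
    rw [he, Affine.Point.some.injEq]
    exact ⟨qX_map V f ι P, qY_map V f ι P⟩
  · simp only [Outside, not_forall, not_not] at h
    obtain ⟨u, rfl⟩ := h
    rw [← mapSub_apply, phiFun_ι, phiFun_ι, map_zero]

theorem phiFun_redTo {L k : Type*} [Field L] [Field k] [DecidableEq L] [DecidableEq k]
    [IsAlgClosed L] [CharZero L] [IsAlgClosed k] [CharZero k]
    {A : ValuationSubring L} {π : A →+* k} [IsLocalHom π] {E : WeierstrassCurve L}
    {W₀ : WeierstrassCurve k} {ιE : G →+ E.toAffine.Point} {ι₀ : G →+ W₀.toAffine.Point}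
    (hred : Reduces π E W₀) (hr : ∀ u : G, RedTo π W₀ (ιE u) (ι₀ u))
    (hE : E.Δ ≠ 0) (hιE : Function.Injective ιE) (hW : W₀.Δ ≠ 0) (hι₀ : Function.Injective ι₀)
    (hodd' : Odd (Nat.card G)) {P : E.toAffine.Point} {Q : W₀.toAffine.Point}
    (h : RedTo π W₀ P Q) :
    RedTo π (quot W₀ ι₀) (phiFun hE hιE hodd' P) (phiFun hW hι₀ hodd' Q) := by
  by_cases hQ : Outside W₀ ι₀ Q
  · rw [phiFun_of_outside _ _ _ hQ, phiFun_of_outside _ _ _ (outside_of_redTo hr h hQ)]
    obtain ⟨hX, hY, -⟩ := res_qX_qY hred hr hι₀ h hQ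
    exact RedTo.of_res hX hY
  · simp only [Outside, not_forall, not_not] at hQ
    obtain ⟨u, rfl⟩ := hQ
    rw [phiFun_ι, ← phiFun_add_ι hE hιE hodd' P (-u)]
    have h' := redTo_add hred hr h (-u)
    rw [map_neg ι₀, add_neg_cancel] at h'
    by_cases h0 : P + ιE (-u) = 0
    · rw [h0, ← map_zero ιE, phiFun_ι]
      exact RedTo.zero
    · rw [phiFun_of_outside _ _ _ (outside_of_redTo_zero hr hι₀ h' h0)]
      exact RedTo.of_notMem (infinity hred hr hι₀ hodd' h' h0).1

include hΔ hι hodd in
theorem phiFun_gen_add (R : V.toAffine.Point) :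
    phiFun (map_Δ_ne_zero V _ hΔ) (mapSub_injective V (algebraMap K (GenField K)) ι hι) hodd
        (genPoint V hΔ + mapPt V _ R) =
      phiFun (map_Δ_ne_zero V _ hΔ) (mapSub_injective V _ ι hι) hodd (genPoint V hΔ) +
      phiFun (map_Δ_ne_zero V _ hΔ) (mapSub_injective V _ ι hι) hodd (mapPt V _ R) := by
  by_cases hR : Outside V ι R
  swap
  · simp only [Outside, not_forall, not_not] at hR
    obtain ⟨u, rfl⟩ := hR
    rw [← mapSub_apply, phiFun_add_ι, phiFun_ι, add_zero]
  set a := algebraMap K (GenField K)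
  set P := genPoint V hΔ
  set φ : (V.map a).toAffine.Point → (quot (V.map a) (mapSub V a ι)).toAffine.Point :=
    phiFun (map_Δ_ne_zero V _ hΔ) (mapSub_injective V a ι hι) hodd
  set D := φ (P + mapPt V a R) + -φ P with hD
  suffices h : D = φ (mapPt V a R) by
    rw [← h, hD]; abel
  have key : ∀ (A : ValuationSubring (GenField K))
      (hA : ∀ b : K, algebraMap K (GenField K) b ∈ A),
      ∃ Q : (quot (V.map (constHom A hA)) (mapSub V (constHom A hA) ι)).toAffine.Point,
        Q ≠ 0 ∧ RedTo (IsLocalRing.residue A) _ D Q ∧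
        (genX K ∉ A → ∀ hs, quotMap V (constHom A hA) ι
          (.some (qX V ι R) (qY V ι R) hs) = Q) := by
    intro A hA
    have : IsAlgClosed (IsLocalRing.ResidueField A) := Gal.isAlgClosed_residueField A
    have := charZero_residue A hA
    have hred := reduces_const (V := V) A hA
    have hr : ∀ u, RedTo (IsLocalRing.residue A) (V.map (constHom A hA)) (ιL u)
        (mapSub V (constHom A hA) ι u) := fun u => redTo_const A hA (ι u)
    have hι₀ := mapSub_injective V (constHom A hA) ι hι
    have hW := map_Δ_ne_zero V (constHom A hA) hΔ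
    obtain ⟨Q, hQ⟩ := exists_redTo_of_Δ_ne_zero hred hW P
    have hsum := hQ.add hred (redTo_const A hA R)
    have h1 := phiFun_redTo hred hr (map_Δ_ne_zero V _ hΔ) (mapSub_injective V a ι hι) hW hι₀ hodd
      hsum
    have h2 := phiFun_redTo hred hr (map_Δ_ne_zero V _ hΔ) (mapSub_injective V a ι hι) hW hι₀ hodd
      hQ
    have hq := reduces_quot hred hr hι₀
    refine ⟨phiFun hW hι₀ hodd (Q + mapPt V (constHom A hA) R) + -phiFun hW hι₀ hodd Q, ?_,
      h1.add hq (h2.neg hq), fun hX hs => ?_⟩
    · intro h0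
      obtain ⟨u, hu⟩ := exists_of_phiFun_eq hW hι₀ hodd (add_neg_eq_zero.mp h0).symm
      exact (hR.map V (constHom A hA) ι) u (add_left_cancel hu)
    · have hQ0 : Q = 0 := hQ.unique (RedTo.of_notMem hX)
      rw [hQ0, zero_add, ← map_zero (mapSub V (constHom A hA) ι), phiFun_ι, neg_zero, add_zero,
        phiFun_map hΔ hι hodd, phiFun_of_outside _ _ _ hR]
  obtain ⟨A, hA, hX⟩ := exists_place_pole (K := K) transcendental_genX
  obtain ⟨Q, hQ0, hQred, hQval⟩ := key A hA
  rcases hDc : D with _ | ⟨xD, yD, hns⟩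
  · rw [hDc] at hQred
    exact absurd (RedTo.unique hQred RedTo.zero) hQ0
  have hmem : ∀ (B : ValuationSubring (GenField K)),
      (∀ b : K, algebraMap K (GenField K) b ∈ B) → xD ∈ B ∧ yD ∈ B := by
    intro B hB
    obtain ⟨Q', hQ'0, hQ'red, -⟩ := key B hB
    rw [hDc] at hQ'red
    exact ⟨(res_coords_of_redTo hQ'red hQ'0).1.mem, (res_coords_of_redTo hQ'red hQ'0).2.mem⟩
  obtain ⟨x₀, hx₀⟩ := mem_range_of_forall_mem fun B hB => (hmem B hB).1
  obtain ⟨y₀, hy₀⟩ := mem_range_of_forall_mem fun B hB => (hmem B hB).2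
  have hv := hQval hX (quot_equation hΔ hι hodd hR)
  obtain ⟨h', he⟩ := quotMap_some V (constHom A hA) ι (quot_equation hΔ hι hodd hR)
  rw [← hv, he, hDc] at hQred
  obtain ⟨rx, ry⟩ := res_coords_of_redTo hQred (Affine.Point.some_ne_zero _)
  simp only [cx_some, cy_some] at rx ry
  have ex : x₀ = qX V ι R :=
    (constHom A hA).injective ((res_const A hA x₀).unique (hx₀ ▸ rx))
  have ey : y₀ = qY V ι R :=
    (constHom A hA).injective ((res_const A hA y₀).unique (hy₀ ▸ ry))
  show _ = phiFun _ _ _ (mapPt V a R)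
  rw [phiFun_of_outside _ _ _ (hR.map V a ι), Affine.Point.some.injEq, qX_map, qY_map,
    ← hx₀, ← hy₀, ex, ey]
  exact ⟨rfl, rfl⟩

include hΔ hι hodd in
theorem phiFun_add (P R : V.toAffine.Point) :
    phiFun hΔ hι hodd (P + R) = phiFun hΔ hι hodd P + phiFun hΔ hι hodd R := by
  by_cases hP : Outside V ι P
  swap
  · simp only [Outside, not_forall, not_not] at hP
    obtain ⟨u, rfl⟩ := hP
    rw [add_comm, phiFun_add_ι, phiFun_ι, zero_add]
  obtain ⟨A, hA, hX⟩ := exists_place (K := K) transcendental_genX (cx V P)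
  have : IsAlgClosed (IsLocalRing.ResidueField A) := Gal.isAlgClosed_residueField A
  have := charZero_residue A hA
  have hXres := res_genX_of_nonunit (hA := hA) hX
  have hred := reduces_const (V := V) A hA
  have hr : ∀ u, RedTo (IsLocalRing.residue A) (V.map (constHom A hA)) (ιL u)
      (mapSub V (constHom A hA) ι u) := fun u => redTo_const A hA (ι u)
  have hι₀ := mapSub_injective V (constHom A hA) ι hι
  have hιL := mapSub_injective V (algebraMap K (GenField K)) ι hι
  have hW := map_Δ_ne_zero V (constHom A hA) hΔ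
  have hE := map_Δ_ne_zero V (algebraMap K (GenField K)) hΔ
  have hq := reduces_quot hred hr hι₀
  obtain ⟨Q, hQ⟩ := exists_redTo_of_Δ_ne_zero hred hW (genPoint V hΔ)
  have hQ0 : Q ≠ 0 := by
    rintro rfl
    exact cx_notMem_of_redTo_zero hQ (Affine.Point.some_ne_zero _) hXres.mem
  have hcx := (res_coords_of_redTo hQ hQ0).1.unique hXres
  rw [← cx_mapPt] at hcx
  have main : ∀ R' : V.toAffine.Point,
      phiFun hW hι₀ hodd (Q + mapPt V (constHom A hA) R') =
        phiFun hW hι₀ hodd Q + phiFun hW hι₀ hodd (mapPt V (constHom A hA) R') := by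
    intro R'
    have h1 := phiFun_redTo hred hr hE hιL hW hι₀ hodd (hQ.add hred (redTo_const A hA R'))
    rw [phiFun_gen_add hΔ hι hodd R'] at h1
    exact h1.unique ((phiFun_redTo hred hr hE hιL hW hι₀ hodd hQ).add hq
      (phiFun_redTo hred hr hE hιL hW hι₀ hodd (redTo_const A hA R')))
  apply quotMap_injective V (constHom A hA) ι
  rw [map_add, ← phiFun_map hΔ hι hodd, ← phiFun_map hΔ hι hodd, ← phiFun_map hΔ hι hodd, map_add]
  rcases eq_or_eq_neg_of_cx_eq _ hQ0 (hP.map V (constHom A hA) ι).ne_zero hcx with he | he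
  · rw [← he]; exact main R
  · have h := main (-R)
    rw [he, map_neg, ← neg_add, phiFun_neg, phiFun_neg, phiFun_neg, ← neg_add, neg_inj] at h
    exact h

/-- The isogeny with kernel the given subgroup. -/
def phiHom : V.toAffine.Point →+ (quot V ι).toAffine.Point :=
  AddMonoidHom.mk' (phiFun hΔ hι hodd) (phiFun_add hΔ hι hodd)

theorem phiHom_apply (P : V.toAffine.Point) : phiHom hΔ hι hodd P = phiFun hΔ hι hodd P := rfl

end Generic

end Fermat.Agent.EC.Quotient
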