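import Mathlib.AlgebraicGeometry.EllipticCurve.Weierstrass
import Mathlib.Algebra.Polynomial.Roots
import Mathlib.Tactic.ComputeDegree
import Mathlib.Tactic.LinearCombination
import Mathlib.Tactic.FieldSimp
import Mathlib.RingTheory.RootsOfUnity.PrimitiveRoots

/-!
The formulas of Vélu on the nodal cubic `y² + xy = x³` for the group of roots of unity of odd order,
in any characteristic prime to the order.
-/

set_option autoImplicit false

noncomputable section

namespace Fermat.Agent.EC.Quotient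

open Polynomial Finset

/-- The polynomial in `z + z⁻¹ - 2` equal to `(z^(2M+1) - 1) / (z^M (z - 1))`. -/
def nodePoly : ℕ → ℤ[X]
  | 0 => 1
  | 1 => X + C 3
  | M + 2 => (X + C 2) * nodePoly (M + 1) - nodePoly M

theorem nodePoly_natDegree : ∀ M : ℕ, (nodePoly M).natDegree ≤ M := by
  intro M
  induction M using Nat.twoStepInduction with
  | zero => simp [nodePoly]
  | one => rw [nodePoly]; compute_degree
  | more n ih₀ ih₁ =>
    rw [nodePoly]
    refine (natDegree_sub_le _ _).trans (max_le (natDegree_mul_le.trans ?_) (ih₀.trans (by omega)))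
    have : (X + C (2 : ℤ)).natDegree ≤ 1 := by compute_degree
    omega

theorem nodePoly_eval {κ : Type*} [Field κ] {z : κ} (hz : z ≠ 0) : ∀ M : ℕ,
    (z - 1) * z ^ M * ((nodePoly M).map (Int.castRingHom κ)).eval (z + z⁻¹ - 2) =
      z ^ (2 * M + 1) - 1 := by
  intro M
  induction M using Nat.twoStepInduction with
  | zero => simp [nodePoly]
  | one => simp [nodePoly]; field_simp; ring
  | more n ih₀ ih₁ =>
    simp only [nodePoly, map_ofNat, Polynomial.map_ofNat, eval_ofNat, Polynomial.map_sub,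
      Polynomial.map_mul, Polynomial.map_add,
      Polynomial.map_X, eval_sub, eval_mul,
      eval_add, eval_X]
    ring_nf at ih₀ ih₁ ⊢
    field_simp at ih₀ ih₁ ⊢
    linear_combination (z ^ 2 + 1) * ih₁ - z ^ 2 * ih₀

theorem nodePoly_coeff : ∀ M : ℕ,
    ((nodePoly M).coeff 0 : ℚ) = 2 * M + 1 ∧
    ((nodePoly M).coeff 1 : ℚ) = M * (M + 1) * (2 * M + 1) / 6 ∧
    ((nodePoly M).coeff 2 : ℚ) = (M + 2) * (M + 1) * M * (M - 1) * (2 * M + 1) / 120 ∧
    ((nodePoly M).coeff 3 : ℚ) =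
      (M + 3) * (M + 2) * (M + 1) * M * (M - 1) * (M - 2) * (2 * M + 1) / 5040 := by
  intro M
  induction M using Nat.twoStepInduction with
  | zero => simp [nodePoly, coeff_one]
  | one => norm_num [nodePoly, coeff_X, coeff_C]
  | more n ih₀ ih₁ =>
    obtain ⟨a0, a1, a2, a3⟩ := ih₀
    obtain ⟨b0, b1, b2, b3⟩ := ih₁
    have h : ∀ i, (nodePoly (n + 2)).coeff (i + 1) =
        (nodePoly (n + 1)).coeff i + 2 * (nodePoly (n + 1)).coeff (i + 1)
          - (nodePoly n).coeff (i + 1) := fun i => by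
      rw [nodePoly, coeff_sub, add_mul, coeff_add, coeff_X_mul, coeff_C_mul]
    have h0 : (nodePoly (n + 2)).coeff 0 =
        2 * (nodePoly (n + 1)).coeff 0 - (nodePoly n).coeff 0 := by
      rw [nodePoly, coeff_sub, add_mul, coeff_add, coeff_X_mul_zero, coeff_C_mul, zero_add]
    refine ⟨?_, ?_, ?_, ?_⟩
    · rw [h0]; push_cast; rw [a0, b0]; push_cast; ring
    · rw [h 0]; push_cast; rw [a1, b0, b1]; push_cast; ring
    · rw [h 1]; push_cast; rw [a2, b1, b2]; push_cast; ring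
    · rw [h 2]; push_cast; rw [a3, b2, b3]; push_cast; ring

section Sums

variable {κ : Type*} [Field κ] [DecidableEq κ]

theorem prod_coeffs (s : Finset κ) :
    let P : κ[X] := ∏ g ∈ s, (1 - C g * X)
    P.coeff 0 = 1 ∧ ∑ g ∈ s, g = -P.coeff 1 ∧
    ∑ g ∈ s, g ^ 2 = P.coeff 1 ^ 2 - 2 * P.coeff 2 ∧
    ∑ g ∈ s, g ^ 3 = -P.coeff 1 ^ 3 + 3 * P.coeff 1 * P.coeff 2 - 3 * P.coeff 3 := by
  induction s using Finset.induction_on with
  | empty => simp [coeff_one]
  | insert g s hg ih =>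
    obtain ⟨h0, h1, h2, h3⟩ := ih
    simp only [prod_insert hg, sum_insert hg, sub_mul, one_mul, coeff_sub, mul_assoc, coeff_C_mul,
      coeff_X_mul, coeff_X_mul_zero, h1, h2, h3, h0]
    refine ⟨by ring, by ring, by ring, by ring⟩

/-- The identities for the invariants of the image of `y² + xy = x³` by the isogeny with kernel
`μ_m`, expressed in the abscissae of the kernel. -/
theorem nodal_invariants {M : ℕ} (hm : ((2 * M + 1 : ℕ) : κ) ≠ 0) (s : Finset κ) (hs : s.card = M)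
    (hroot : ∀ g ∈ s, ∃ z : κ, z ^ (2 * M + 1) = 1 ∧ z ≠ 1 ∧ g = z / (1 - z) ^ 2) :
    let T := ∑ g ∈ s, (6 * g ^ 2 + g)
    let W := ∑ g ∈ s, (10 * g ^ 3 + 2 * g ^ 2)
    let a₄ := -5 * T
    let a₆ := -T - 7 * W
    (1 - 48 * a₄ = ((2 * M + 1 : ℕ) : κ) ^ 4) ∧
    (⟨1, 0, 0, a₄, a₆⟩ : WeierstrassCurve κ).Δ = 0 ∧
    (72 * a₆ - 2 * a₄ = ((2 * M + 1 : ℕ) : κ) ^ 4 * (-(2 * ∑ g ∈ s, g))) := by
  intro T W a₄ a₆
  have hnz : ∀ g ∈ s, g ≠ 0 ∧ ((nodePoly M).map (Int.castRingHom κ)).eval g⁻¹ = 0 := by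
    intro g hg
    obtain ⟨z, hz, hz1, rfl⟩ := hroot g hg
    have hz0 : z ≠ 0 := fun h => by simp [h] at hz
    have h1z : 1 - z ≠ 0 := sub_ne_zero.mpr (Ne.symm hz1)
    refine ⟨div_ne_zero hz0 (pow_ne_zero 2 h1z), ?_⟩
    have e : (z / (1 - z) ^ 2)⁻¹ = z + z⁻¹ - 2 := by field_simp; ring
    have h := nodePoly_eval hz0 M
    rw [hz, sub_self] at h
    rw [e]
    exact (mul_eq_zero.mp h).resolve_left (mul_ne_zero (sub_ne_zero.mpr hz1) (pow_ne_zero _ hz0))
  set P : κ[X] := ∏ g ∈ s, (1 - C g * X)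
  have hc0 : (((nodePoly M).coeff 0 : ℤ) : κ) = ((2 * M + 1 : ℕ) : κ) := by
    have : (nodePoly M).coeff 0 = ((2 * M + 1 : ℕ) : ℤ) := by
      have := (nodePoly_coeff M).1
      exact_mod_cast this
    rw [this]; norm_cast
  have hU : (nodePoly M).map (Int.castRingHom κ) = C ((2 * M + 1 : ℕ) : κ) * P := by
    refine eq_of_natDegree_lt_card_of_eval_eq' _ _ (insert 0 (s.image fun g => g⁻¹)) ?_ ?_
    · intro x hx
      rcases mem_insert.mp hx with rfl | hx
      · rw [← coeff_zero_eq_eval_zero, ← coeff_zero_eq_eval_zero, coeff_map, coeff_C_mul,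
          (prod_coeffs s).1, mul_one, eq_intCast, hc0]
      · obtain ⟨g, hg, rfl⟩ := mem_image.mp hx
        rw [(hnz g hg).2, eval_mul, eval_prod, prod_eq_zero hg, mul_zero]
        simp [(hnz g hg).1]
    · rw [card_insert_of_notMem, card_image_of_injective _ inv_injective, hs]
      · refine Nat.lt_succ_of_le (max_le (natDegree_map_le.trans (nodePoly_natDegree M))
          (natDegree_C_mul_le _ _ |>.trans ?_))
        refine (natDegree_prod_le _ _).trans ((sum_le_card_nsmul _ _ 1 fun g _ => ?_).trans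
          (by simp [hs]))
        exact (natDegree_sub_le _ _).trans
          (max_le (by simp) (natDegree_C_mul_le _ _ |>.trans natDegree_X_le))
      · intro h
        obtain ⟨g, hg, h⟩ := mem_image.mp h
        exact (hnz g hg).1 (inv_eq_zero.mp h)
  obtain ⟨-, p1, p2, p3⟩ := prod_coeffs s
  have hc : ∀ i, (((nodePoly M).coeff i : ℤ) : κ) = ((2 * M + 1 : ℕ) : κ) * P.coeff i := fun i => by
    have := congrArg (fun F : κ[X] => F.coeff i) hU
    simpa only [coeff_map, coeff_C_mul, eq_intCast] using this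
  set m : ℤ := ((2 * M + 1 : ℕ) : ℤ) with hmdef
  set c₁ := (nodePoly M).coeff 1
  set c₂ := (nodePoly M).coeff 2
  set c₃ := (nodePoly M).coeff 3
  obtain ⟨-, q1, q2, q3⟩ := nodePoly_coeff M
  have hmQ : (m : ℚ) = 2 * M + 1 := by simp [hmdef]
  let TT := 6 * (c₁ ^ 2 - 2 * m * c₂) - m * c₁
  let WW := 10 * (-c₁ ^ 3 + 3 * m * c₁ * c₂ - 3 * m ^ 2 * c₃) + 2 * m * (c₁ ^ 2 - 2 * m * c₂)
  let A₄ := -5 * TT
  let A₆ := -m * TT - 7 * WW
  have I1 : m ^ 2 - 48 * A₄ = m ^ 6 := by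
    apply Int.cast_injective (α := ℚ)
    simp only [A₄, TT]
    push_cast
    rw [q1, q2, hmQ]; ring
  have I2 : -m ^ 3 * A₆ + m ^ 2 * A₄ ^ 2 - 64 * A₄ ^ 3 - 432 * A₆ ^ 2 + 72 * m * A₄ * A₆ = 0 := by
    apply Int.cast_injective (α := ℚ)
    simp only [A₄, A₆, TT, WW]
    push_cast
    rw [q1, q2, q3, hmQ]; ring
  have I3 : 72 * A₆ - 2 * m * A₄ = 2 * m ^ 6 * c₁ := by
    apply Int.cast_injective (α := ℚ)
    simp only [A₄, A₆, TT, WW]
    push_cast
    rw [q1, q2, q3, hmQ]; ring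
  have hmκ : (m : κ) = ((2 * M + 1 : ℕ) : κ) := by simp [hmdef]
  rw [← hmκ] at hm hc ⊢
  have e1 := hc 1
  have e2 := hc 2
  have e3 := hc 3
  have hTT : (TT : κ) = (m : κ) ^ 2 * T := by
    simp only [TT, T, sum_add_distrib, ← mul_sum, p1, p2]
    push_cast
    rw [e1, e2]; ring
  have hWW : (WW : κ) = (m : κ) ^ 3 * W := by
    simp only [WW, W, sum_add_distrib, ← mul_sum, p2, p3]
    push_cast
    rw [e1, e2, e3]; ring
  have hA₄ : (A₄ : κ) = (m : κ) ^ 2 * a₄ := by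
    simp only [A₄, a₄]; push_cast; rw [hTT]; ring
  have hA₆ : (A₆ : κ) = (m : κ) ^ 3 * a₆ := by
    simp only [A₆, a₆]; push_cast; rw [hTT, hWW]; ring
  have J1 := congrArg (Int.cast : ℤ → κ) I1
  have J2 := congrArg (Int.cast : ℤ → κ) I2
  have J3 := congrArg (Int.cast : ℤ → κ) I3
  push_cast at J1 J2 J3
  rw [hA₄] at J1
  rw [hA₄, hA₆] at J2 J3
  rw [e1] at J3
  refine ⟨?_, ?_, ?_⟩
  · exact mul_left_cancel₀ (pow_ne_zero 2 hm) (by linear_combination J1)
  · refine (mul_eq_zero.mp (?_ : (m : κ) ^ 6 * _ = 0)).resolve_left (pow_ne_zero 6 hm)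
    simp only [WeierstrassCurve.Δ, WeierstrassCurve.b₂, WeierstrassCurve.b₄, WeierstrassCurve.b₆,
      WeierstrassCurve.b₈]
    linear_combination J2
  · rw [p1]
    exact mul_left_cancel₀ (pow_ne_zero 3 hm) (by linear_combination J3)

/-- The sum of `w / (1 - w)²` over a coset of the roots of unity. -/
theorem sum_translates {m : ℕ} (hm : (m : κ) ≠ 0) (μ : Finset κ) (hcard : μ.card = m)
    (hμ : ∀ ζ ∈ μ, ζ ^ m = 1) {z : κ} (hz : z ^ m ≠ 1) :
    ∑ ζ ∈ μ, ζ * z / (1 - ζ * z) ^ 2 = (m : κ) ^ 2 * z ^ m / (1 - z ^ m) ^ 2 := by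
  have hm0 : 0 < m := Nat.pos_of_ne_zero fun h => hm (by simp [h])
  have hall : μ = nthRootsFinset m (1 : κ) := eq_of_subset_of_card_le
    (fun ζ hζ => (mem_nthRootsFinset hm0 _).mpr (hμ ζ hζ)) (by
      rw [hcard, nthRootsFinset_def]
      exact (Multiset.toFinset_card_le _).trans (card_nthRoots m 1))
  have hpow : ∀ k, ¬ m ∣ k → ∑ ζ ∈ μ, ζ ^ k = 0 := by
    intro k hk
    have hr : 0 < k % m := Nat.pos_of_ne_zero fun h => hk (Nat.dvd_of_mod_eq_zero h)
    obtain ⟨η, hη, hηk⟩ : ∃ η ∈ μ, η ^ k ≠ 1 := by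
      by_contra hcon
      push Not at hcon
      have hsub : μ ⊆ nthRootsFinset (k % m) (1 : κ) := fun ζ hζ => by
        rw [mem_nthRootsFinset hr]
        rw [← hcon ζ hζ]
        conv_rhs => rw [← Nat.div_add_mod k m, pow_add, pow_mul, hμ ζ hζ, one_pow, one_mul]
      have : μ.card ≤ k % m := by
        refine (card_le_card hsub).trans ?_
        rw [nthRootsFinset_def]
        exact (Multiset.toFinset_card_le _).trans (card_nthRoots _ _)
      have := Nat.mod_lt k hm0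
      omega
    have hη0 : η ≠ 0 := fun h => by simpa [h, hm0.ne'] using hμ η hη
    have : ∑ ζ ∈ μ, (η * ζ) ^ k = ∑ ζ ∈ μ, ζ ^ k := by
      have himg : μ.image (η * ·) = μ := eq_of_subset_of_card_le (fun x hx => by
        obtain ⟨ζ, hζ, rfl⟩ := mem_image.mp hx
        rw [hall, mem_nthRootsFinset hm0, mul_pow, hμ η hη, hμ ζ hζ, mul_one])
        (by rw [card_image_of_injective _ (mul_right_injective₀ hη0)])
      conv_rhs => rw [← himg, sum_image fun a _ b _ h => mul_right_injective₀ hη0 h]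
    simp only [mul_pow, ← mul_sum] at this
    exact (mul_eq_zero.mp
      (show (η ^ k - 1) * ∑ ζ ∈ μ, ζ ^ k = 0 by linear_combination this)).resolve_left
      (sub_ne_zero.mpr hηk)
  have hterm : ∀ ζ ∈ μ, ζ * z / (1 - ζ * z) ^ 2 * (1 - z ^ m) ^ 2 =
      ∑ i ∈ range m, ∑ j ∈ range m, ζ ^ (i + j + 1) * z ^ (i + j + 1) := by
    intro ζ hζ
    have hne : 1 - ζ * z ≠ 0 := fun h => hz (by
      rw [show (z : κ) ^ m = (ζ * z) ^ m by rw [mul_pow, hμ ζ hζ, one_mul],
        ← sub_eq_zero.mp h, one_pow])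
    have hg : 1 - z ^ m = (1 - ζ * z) * ∑ i ∈ range m, (ζ * z) ^ i := by
      rw [mul_neg_geom_sum, mul_pow, hμ ζ hζ, one_mul]
    rw [hg, mul_pow, ← mul_assoc, div_mul_cancel₀ _ (pow_ne_zero 2 hne), sq, sum_mul_sum, mul_sum]
    refine sum_congr rfl fun i _ => ?_
    rw [mul_sum]
    exact sum_congr rfl fun j _ => by ring
  rw [eq_div_iff (pow_ne_zero 2 (sub_ne_zero.mpr (Ne.symm hz))), sum_mul, sum_congr rfl hterm,
    sum_comm]
  have hi : ∀ i ∈ range m,
      (∑ ζ ∈ μ, ∑ j ∈ range m, ζ ^ (i + j + 1) * z ^ (i + j + 1)) = (m : κ) * z ^ m := by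
    intro i hi
    rw [mem_range] at hi
    rw [sum_comm]
    simp only [← sum_mul]
    rw [sum_eq_single (m - 1 - i)]
    · rw [show i + (m - 1 - i) + 1 = m by omega, sum_congr rfl hμ, sum_const, hcard, nsmul_one]
    · intro j hj hne
      rw [mem_range] at hj
      rw [hpow, zero_mul]
      rintro ⟨c, hc⟩
      rcases c with _ | _ | c
      · omega
      · exact hne (by omega)
      · rw [mul_add, mul_add] at hc; omega
    · intro h
      exact absurd (mem_range.mpr (by omega)) h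
  rw [sum_congr rfl hi, sum_const, card_range, nsmul_eq_mul]
  ring

end Sums

end Fermat.Agent.EC.Quotient
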