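import Fermat.Agent.EC.Quotient.Sums
import Fermat.Agent.EC.Reduction.Basic
import Mathlib.RingTheory.Valuation.LocalSubring
import Mathlib.FieldTheory.IsAlgClosed.Basic

/-!
The formulas of Vélu and reduction along a valuation subring: points with affine reduction, and
points reducing to infinity. Valuation subrings containing a field of constants.
-/

set_option autoImplicit false

noncomputable section

namespace Fermat.Agent.EC.Quotient

open WeierstrassCurve Finset Fermat.Agent.EC.Reduction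
open scoped Classical

section Places

variable {K L : Type*} [Field K] [Field L] [Algebra K L]

/-- A place over the constants at which a transcendental element takes a prescribed value. -/
theorem exists_place {t : L} (ht : Transcendental K t) (c : K) :
    ∃ A : ValuationSubring L, (∀ a : K, algebraMap K L a ∈ A) ∧
      t - algebraMap K L c ∈ A.nonunits := by
  set R : Subring L := (Polynomial.aeval (R := K) t).toRingHom.range
  have ht' : Function.Injective (Polynomial.aeval (R := K) t) :=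
    transcendental_iff_injective.mp ht
  let z : R := ⟨t - algebraMap K L c, Polynomial.X - Polynomial.C c, by simp⟩
  have hI : Ideal.span {z} ≠ (⊤ : Ideal R) := fun h => by
    obtain ⟨⟨w, p, rfl⟩, hw⟩ := Ideal.mem_span_singleton'.mp (h ▸ Submodule.mem_top :
      (1 : R) ∈ Ideal.span {z})
    have hp : p * (Polynomial.X - Polynomial.C c) = 1 := ht' (by
      simpa [z] using congrArg Subtype.val hw)
    exact Polynomial.not_isUnit_X_sub_C c (IsUnit.of_mul_eq_one_right p hp)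
  obtain ⟨A, hle, hA⟩ := Ideal.image_subset_nonunits_valuationSubring _ hI
  refine ⟨A, fun a => hle ⟨Polynomial.C a, by simp⟩, hA ⟨z, Ideal.subset_span rfl, rfl⟩⟩

/-- A place over the constants at which a transcendental element has a pole. -/
theorem exists_place_pole {t : L} (ht : Transcendental K t) :
    ∃ A : ValuationSubring L, (∀ a : K, algebraMap K L a ∈ A) ∧ t ∉ A := by
  have ht' : Transcendental K t⁻¹ := fun h => ht (by simpa using h.inv)
  obtain ⟨A, hc, hA⟩ := exists_place ht' 0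
  refine ⟨A, hc, ?_⟩
  rw [map_zero, sub_zero, A.inv_mem_nonunits_iff] at hA
  exact hA.resolve_left (fun h => ht (h ▸ isAlgebraic_zero))

/-- An element which is integral at every place over an algebraically closed field of constants is a
constant. -/
theorem mem_range_of_forall_mem [IsAlgClosed K] {z : L}
    (h : ∀ A : ValuationSubring L, (∀ a : K, algebraMap K L a ∈ A) → z ∈ A) :
    z ∈ (algebraMap K L).range := by
  by_contra hz
  have ht : Transcendental K z := by
    intro halg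
    obtain ⟨p, hp0, hp⟩ := halg
    rw [Polynomial.aeval_def, Polynomial.eval₂_eq_eval_map] at hp
    have hsplit := IsAlgClosed.splits p
    have hroot : (p.map (algebraMap K L)).IsRoot z := hp
    have hmem := (Polynomial.mem_roots (Polynomial.map_ne_zero hp0)).mpr hroot
    rw [hsplit.roots_map] at hmem
    obtain ⟨a, -, ha⟩ := Multiset.mem_map.mp hmem
    exact hz ⟨a, ha⟩
  obtain ⟨A, hc, hA⟩ := exists_place_pole ht
  exact hA (h A hc)

/-- The constants inside the residue field. -/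
def constHom (A : ValuationSubring L) (hA : ∀ a : K, algebraMap K L a ∈ A) :
    K →+* IsLocalRing.ResidueField A :=
  (IsLocalRing.residue A).comp ((algebraMap K L).codRestrict A.toSubring hA)

theorem res_const (A : ValuationSubring L) (hA : ∀ a : K, algebraMap K L a ∈ A) (a : K) :
    Res (IsLocalRing.residue A) (algebraMap K L a) (constHom A hA a) :=
  ⟨hA a, rfl⟩

end Places

section Res

variable {L k : Type*} [Field L] [Field k] {A : ValuationSubring L} {π : A →+* k}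

theorem res_sum {β : Type*} {s : Finset β} {f : β → L} {g : β → k}
    (h : ∀ b ∈ s, Res π (f b) (g b)) : Res π (∑ b ∈ s, f b) (∑ b ∈ s, g b) := by
  induction s using Finset.induction_on with
  | empty => simpa using Res.zero
  | insert b s hb ih =>
    rw [sum_insert hb, sum_insert hb]
    exact (h b (mem_insert_self b s)).add (ih fun c hc => h c (mem_insert_of_mem hc))

theorem res_b₂ {E : WeierstrassCurve L} {W₀ : WeierstrassCurve k} (h : Reduces π E W₀) :
    Res π E.b₂ W₀.b₂ :=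
  (h.a₁.pow 2).add ((Res.ofNat 4).mul h.a₂)

theorem res_b₄ {E : WeierstrassCurve L} {W₀ : WeierstrassCurve k} (h : Reduces π E W₀) :
    Res π E.b₄ W₀.b₄ :=
  ((Res.ofNat 2).mul h.a₄).add (h.a₁.mul h.a₃)

theorem res_b₆ {E : WeierstrassCurve L} {W₀ : WeierstrassCurve k} (h : Reduces π E W₀) :
    Res π E.b₆ W₀.b₆ :=
  (h.a₃.pow 2).add ((Res.ofNat 4).mul h.a₆)

theorem res_tt {E : WeierstrassCurve L} {W₀ : WeierstrassCurve k} (h : Reduces π E W₀) {v : L}
    {w : k} (hv : Res π v w) : Res π (tt E v) (tt W₀ w) :=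
  (((Res.ofNat 6).mul (hv.pow 2)).add ((res_b₂ h).mul hv)).add (res_b₄ h)

theorem res_psi {E : WeierstrassCurve L} {W₀ : WeierstrassCurve k} (h : Reduces π E W₀) {v : L}
    {w : k} (hv : Res π v w) : Res π (psi E v) (psi W₀ w) :=
  ((((Res.ofNat 4).mul (hv.pow 3)).add ((res_b₂ h).mul (hv.pow 2))).add
    (((Res.ofNat 2).mul (res_b₄ h)).mul hv)).add (res_b₆ h)

theorem res_coords_of_redTo {E : WeierstrassCurve L} {W₀ : WeierstrassCurve k}
    {P : E.toAffine.Point} {Q : W₀.toAffine.Point} (h : RedTo π W₀ P Q) (hQ : Q ≠ 0) :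
    Res π (cx E P) (cx W₀ Q) ∧ Res π (cy E P) (cy W₀ Q) := by
  rcases P with _ | ⟨x, y, hP⟩
  · exact absurd (show Q = 0 from h) hQ
  · rcases h with ⟨-, rfl⟩ | ⟨x₀, y₀, h₀, hx, hy, rfl⟩
    · exact absurd rfl hQ
    · exact ⟨hx, hy⟩

theorem cx_notMem_of_redTo_zero {E : WeierstrassCurve L} {W₀ : WeierstrassCurve k}
    {P : E.toAffine.Point} (h : RedTo π W₀ P 0) (hP : P ≠ 0) : cx E P ∉ A := by
  rcases P with _ | ⟨x, y, hns⟩
  · exact absurd rfl hP
  · rcases h with ⟨hx, -⟩ | ⟨x₀, y₀, h₀, -, -, h0⟩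
    · exact hx
    · exact absurd h0.symm (Affine.Point.some_ne_zero h₀)

variable [DecidableEq L] [DecidableEq k] [IsLocalHom π]
variable {E : WeierstrassCurve L} {W₀ : WeierstrassCurve k} {G : Type*} [AddCommGroup G]
  [Fintype G] {ι : G →+ E.toAffine.Point} {ι₀ : G →+ W₀.toAffine.Point}
variable (hred : Reduces π E W₀) (hr : ∀ u : G, RedTo π W₀ (ι u) (ι₀ u))
  (hι₀ : Function.Injective ι₀)

omit [IsLocalHom π] [Fintype G] in
include hr hι₀ in
theorem injective_of_redTo : Function.Injective ι := fun u w h =>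
  hι₀ ((h ▸ hr u).unique (hr w))

omit [Fintype G] [IsLocalHom π] in
include hr hι₀ in
theorem res_coords_ι (u : G) :
    Res π (cx E (ι u)) (cx W₀ (ι₀ u)) ∧ Res π (cy E (ι u)) (cy W₀ (ι₀ u)) := by
  by_cases hu : u = 0
  · subst hu
    simp only [map_zero, cx_zero, cy_zero]
    exact ⟨Res.zero, Res.zero⟩
  · exact res_coords_of_redTo (hr u) (ι_ne_zero hι₀ hu)

omit [IsLocalHom π] in
include hr hι₀ in
theorem res_xs_sum {F : L → L} {F₀ : k → k} (hF : ∀ v w, Res π v w → Res π (F v) (F₀ w)) :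
    Res π (∑ v ∈ xs E ι, F v) (∑ w ∈ xs W₀ ι₀, F₀ w) := by
  let r : L → k := fun v => if h : v ∈ A then π ⟨v, h⟩ else 0
  have hrr : ∀ u : G, r (cx E (ι u)) = cx W₀ (ι₀ u) := fun u => by
    obtain ⟨hm, he⟩ := (res_coords_ι hr hι₀ u).1
    simp only [r, dif_pos hm, he]
  have himg : xs W₀ ι₀ = (xs E ι).image r := by
    rw [xs, xs, image_image]
    exact image_congr fun u _ => (hrr u).symm
  have hinj : Set.InjOn r (xs E ι : Set L) := by
    intro v hv w hw h
    obtain ⟨a, ha, rfl⟩ := mem_image.mp hv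
    obtain ⟨b, hb, rfl⟩ := mem_image.mp hw
    rw [hrr, hrr, cx_ι_eq_iff hι₀ (mem_filter.mp ha).2 (mem_filter.mp hb).2] at h
    exact (cx_ι_eq_iff (injective_of_redTo hr hι₀) (mem_filter.mp ha).2 (mem_filter.mp hb).2).mpr h
  rw [himg, sum_image hinj]
  refine res_sum fun v hv => hF _ _ ?_
  obtain ⟨u, -, rfl⟩ := mem_image.mp hv
  rw [hrr]
  exact (res_coords_ι hr hι₀ u).1

omit [IsLocalHom π] in
include hred hr hι₀ in
theorem res_qT : Res π (qT E ι) (qT W₀ ι₀) :=
  res_xs_sum hr hι₀ fun _ _ h => res_tt hred h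

omit [IsLocalHom π] in
include hred hr hι₀ in
theorem res_qW : Res π (qW E ι) (qW W₀ ι₀) :=
  res_xs_sum hr hι₀ fun _ _ h => (res_psi hred h).add (h.mul (res_tt hred h))

omit [IsLocalHom π] in
include hred hr hι₀ in
/-- The quotient curve reduces to the quotient curve. -/
theorem reduces_quot : Reduces π (quot E ι) (quot W₀ ι₀) :=
  ⟨hred.a₁, hred.a₂, hred.a₃, hred.a₄.sub ((Res.ofNat 5).mul (res_qT hred hr hι₀)),
    (hred.a₆.sub ((res_b₂ hred).mul (res_qT hred hr hι₀))).sub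
      ((Res.ofNat 7).mul (res_qW hred hr hι₀))⟩

omit [Fintype G] in
include hred hr in
theorem redTo_add {P : E.toAffine.Point} {Q : W₀.toAffine.Point} (hP : RedTo π W₀ P Q) (u : G) :
    RedTo π W₀ (P + ι u) (Q + ι₀ u) :=
  hP.add hred (hr u)

omit [IsLocalHom π] [Fintype G] in
include hr in
theorem outside_of_redTo {P : E.toAffine.Point} {Q : W₀.toAffine.Point} (hP : RedTo π W₀ P Q)
    (hQ : Outside W₀ ι₀ Q) : Outside E ι P :=
  fun u h => hQ u (hP.unique (h ▸ hr u))

omit [IsLocalHom π] [Fintype G] in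
include hr hι₀ in
theorem outside_of_redTo_zero {P : E.toAffine.Point} (hP : RedTo π W₀ P 0) (hP0 : P ≠ 0) :
    Outside E ι P := fun u h => hP0 <| by
  have : ι₀ u = ι₀ 0 := by rw [map_zero]; exact (h ▸ hr u).unique hP
  rw [h, hι₀ this, map_zero]

include hred hr hι₀ in
/-- Coordinates of the image of a point with affine reduction. -/
theorem res_qX_qY {P : E.toAffine.Point} {Q : W₀.toAffine.Point} (hP : RedTo π W₀ P Q)
    (hQ : Outside W₀ ι₀ Q) :
    Res π (qX E ι P) (qX W₀ ι₀ Q) ∧ Res π (qY E ι P) (qY W₀ ι₀ Q) ∧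
      Res π (qL E ι P) (qL W₀ ι₀ Q) := by
  have h := fun u => res_coords_of_redTo (redTo_add hred hr hP u) (hQ.add_ne_zero u)
  have h' := fun u => res_coords_ι hr hι₀ u
  refine ⟨(res_sum fun u _ => (h u).1).sub (res_sum fun u _ => (h' u).1),
    (res_sum fun u _ => (h u).2).sub (res_sum fun u _ => (h' u).2), res_sum fun u _ => ?_⟩
  rw [cl_eq _ ((outside_of_redTo hr hP hQ).add_ne_zero u), cl_eq _ (hQ.add_ne_zero u)]
  exact (((Res.ofNat 2).mul (h u).2).add (hred.a₁.mul (h u).1)).add hred.a₃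

include hred hr hι₀ in
theorem res_defect {P : E.toAffine.Point} {Q : W₀.toAffine.Point} (hP : RedTo π W₀ P Q)
    (hQ : Outside W₀ ι₀ Q) : Res π (defect E ι P) (defect W₀ ι₀ Q) := by
  obtain ⟨hX, -, hL⟩ := res_qX_qY hred hr hι₀ hP hQ
  have hT := res_qT hred hr hι₀
  exact (hL.pow 2).sub (((((Res.ofNat 4).mul (hX.pow 3)).add ((res_b₂ hred).mul (hX.pow 2))).add
    (((Res.ofNat 2).mul ((res_b₄ hred).sub ((Res.ofNat 10).mul hT))).mul hX)).add
      (((res_b₆ hred).sub (((Res.ofNat 4).mul (res_b₂ hred)).mul hT)).sub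
        ((Res.ofNat 28).mul (res_qW hred hr hι₀))))

omit [DecidableEq L] in
theorem infinity_identity {x b₂ b₄ b₆ T W D₁ D₂ S X M : L} (hx : x ≠ 0)
    (hS : S = (4 * x ^ 3 + b₂ * x ^ 2 + 2 * b₄ * x + b₆) * (1 - M) ^ 2)
    (hM : M = x⁻¹ ^ 2 * T + x⁻¹ ^ 3 * D₂) (hX : X = x + (x⁻¹ * T + x⁻¹ ^ 2 * D₁)) :
    S - (4 * X ^ 3 + b₂ * X ^ 2 + 2 * (b₄ - 10 * T) * X + (b₆ - 4 * b₂ * T - 28 * W)) =
      -8 * D₂ - 2 * b₂ * (T + x⁻¹ * D₂) - 4 * b₄ * x⁻¹ * (T + x⁻¹ * D₂)
        - 2 * b₆ * x⁻¹ ^ 2 * (T + x⁻¹ * D₂)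
        + x⁻¹ * (4 + b₂ * x⁻¹ + 2 * b₄ * x⁻¹ ^ 2 + b₆ * x⁻¹ ^ 3) * (T + x⁻¹ * D₂) ^ 2
        - 12 * D₁ - 12 * x⁻¹ * (T + x⁻¹ * D₁) ^ 2 - 4 * x⁻¹ ^ 3 * (T + x⁻¹ * D₁) ^ 3
        - 2 * b₂ * (T + x⁻¹ * D₁) - b₂ * x⁻¹ ^ 2 * (T + x⁻¹ * D₁) ^ 2
        - 2 * b₄ * x⁻¹ * (T + x⁻¹ * D₁) + 20 * T * x⁻¹ * (T + x⁻¹ * D₁)
        + 4 * b₂ * T + 28 * W := by
  subst hS hM hX
  field_simp
  ring

include hred hr hι₀ in
/-- A point reducing to infinity: its image does, and the defect reduces to zero. -/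
theorem infinity [NeZero (2 : L)] (hodd : Odd (Nat.card G)) {P : E.toAffine.Point}
    (hP : RedTo π W₀ P 0) (hP0 : P ≠ 0) :
    qX E ι P ∉ A ∧ Res π (defect E ι P) 0 := by
  have hout := outside_of_redTo_zero hr hι₀ hP hP0
  have hι := injective_of_redTo hr hι₀
  have hxA := cx_notMem_of_redTo_zero hP hP0
  set x := cx E P with hx
  have hx0 : x ≠ 0 := fun h => hxA (h ▸ A.zero_mem)
  have hs := Res.inv_of_notMem π hxA
  have hden : ∀ {v : L} {w : k}, Res π v w → Res π (1 - v * x⁻¹) 1 := fun h => by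
    have := Res.one.sub (h.mul hs)
    rwa [mul_zero, sub_zero] at this
  set D₁ := ∑ v ∈ xs E ι, (tt E v * v / (1 - v * x⁻¹) + psi E v / (1 - v * x⁻¹) ^ 2)
  set D₂ := ∑ v ∈ xs E ι, (tt E v * v * (2 - v * x⁻¹) / (1 - v * x⁻¹) ^ 2
    + 2 * psi E v / (1 - v * x⁻¹) ^ 3)
  have hD₁ : Res π D₁ (qW W₀ ι₀) := by
    refine res_xs_sum hr hι₀ fun v w h => ?_
    have := (((res_tt hred h).mul h).div (hden h) one_ne_zero).add
      ((res_psi hred h).div ((hden h).pow 2) (by simp))
    simpa [add_comm, mul_comm] using this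
  have hD₂ : Res π D₂ (2 * qW W₀ ι₀) := by
    rw [qW, mul_sum]
    refine res_xs_sum hr hι₀ fun v w h => ?_
    have := ((((res_tt hred h).mul h).mul ((Res.ofNat 2).sub (h.mul hs))).div ((hden h).pow 2)
      (by simp)).add (((Res.ofNat 2).mul (res_psi hred h)).div ((hden h).pow 3) (by simp))
    rw [mul_zero, sub_zero, one_pow, one_pow, div_one, div_one] at this
    rw [show 2 * (psi W₀ w + w * tt W₀ w) = tt W₀ w * w * 2 + 2 * psi W₀ w by ring]
    exact this
  have hv : ∀ v ∈ xs E ι, x - v ≠ 0 ∧ 1 - v * x⁻¹ ≠ 0 := fun v hv => by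
    have h1 : x - v ≠ 0 := sub_ne_zero.mpr fun e => hout.cx_notMem hι (hx ▸ e ▸ hv)
    refine ⟨h1, ?_⟩
    field_simp
    exact div_ne_zero h1 hx0
  have hX : qX E ι P = x + (x⁻¹ * qT E ι + x⁻¹ ^ 2 * D₁) := by
    rw [qX_eq hι hodd hout, ← hx]
    congr 1
    rw [qT, mul_sum, mul_sum, ← sum_add_distrib]
    refine sum_congr rfl fun v hv' => ?_
    obtain ⟨h1, h2⟩ := hv v hv'
    field_simp
    ring
  have hM : ∑ v ∈ xs E ι, (tt E v / (x - v) ^ 2 + 2 * psi E v / (x - v) ^ 3)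
      = x⁻¹ ^ 2 * qT E ι + x⁻¹ ^ 3 * D₂ := by
    rw [qT, mul_sum, mul_sum, ← sum_add_distrib]
    refine sum_congr rfl fun v hv' => ?_
    obtain ⟨h1, h2⟩ := hv v hv'
    field_simp
    ring
  have hT := res_qT hred hr hι₀
  have hW := res_qW hred hr hι₀
  constructor
  · intro hm
    rw [hX] at hm
    have h2 : x⁻¹ * qT E ι + x⁻¹ ^ 2 * D₁ ∈ A := ((hs.mul hT).add ((hs.pow 2).mul hD₁)).mem
    exact hxA (by simpa using sub_mem hm h2)
  · rw [defect, qL_eq hι hodd hout, mul_pow, cl_sq E P hP0, ← hx]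
    simp only [psi] at hM ⊢
    rw [infinity_identity (W := qW E ι) hx0 rfl hM hX]
    have hb2 := res_b₂ hred
    have hb4 := res_b₄ hred
    have hb6 := res_b₆ hred
    have h1 := hT.add (hs.mul hD₁)
    have h2 := hT.add (hs.mul hD₂)
    have := ((((((((((((Res.ofNat 8).neg.mul hD₂).sub (((Res.ofNat 2).mul hb2).mul h2)).sub
      ((((Res.ofNat 4).mul hb4).mul hs).mul h2)).sub
      ((((Res.ofNat 2).mul hb6).mul (hs.pow 2)).mul h2)).add
      ((hs.mul ((((Res.ofNat 4).add (hb2.mul hs)).add (((Res.ofNat 2).mul hb4).mul (hs.pow 2))).add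
        (hb6.mul (hs.pow 3)))).mul (h2.pow 2))).sub
      ((Res.ofNat 12).mul hD₁)).sub (((Res.ofNat 12).mul hs).mul (h1.pow 2))).sub
      (((Res.ofNat 4).mul (hs.pow 3)).mul (h1.pow 3))).sub
      (((Res.ofNat 2).mul hb2).mul h1)).sub ((hb2.mul (hs.pow 2)).mul (h1.pow 2))).sub
      ((((Res.ofNat 2).mul hb4).mul hs).mul h1)).add ((((Res.ofNat 20).mul hT).mul hs).mul h1)
      |>.add (((Res.ofNat 4).mul hb2).mul hT) |>.add ((Res.ofNat 28).mul hW)
    convert this using 1
    ring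

end Res

end Fermat.Agent.EC.Quotient
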