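import Fermat.Agent.EC.Quotient.Sums
import Fermat.Agent.EC.Quotient.Nodal
import Fermat.Agent.EC.Quotient.Reduce
import Fermat.Agent.Multiplicative.Inertia
import Fermat.Agent.EC.Reduction.NoTorsion

/-!
The quotient of a curve with multiplicative reduction at a place by a subgroup of order prime to
the residue characteristic: the formulas of Vélu give an integral equation, again of multiplicative
reduction, and points of the identity component outside the subgroup have nonsingular image.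
-/

set_option autoImplicit false

noncomputable section

namespace Fermat.Agent.EC.Quotient

open WeierstrassCurve Finset Fermat.Agent.EC.Reduction Fermat.Agent.Multiplicative
open scoped WeierstrassCurve.Affine Classical

local notation "Qbar" => AlgebraicClosure ℚ
local notation "EQ" W => ((WeierstrassCurve.map W (Int.castRingHom ℚ))⁄(AlgebraicClosure ℚ))

variable {W : WeierstrassCurve ℤ} {A : ValuationSubring (AlgebraicClosure ℚ)} {q : ℕ}
  (h : MultAt W A q) {G : Type*} [AddCommGroup G] [Fintype G]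
  (ι : G →+ (EQ W).toAffine.Point)

theorem node_b₂ : (EQ W).b₂ + 12 * h.node.r = h.node.u ^ 2 := by
  rw [WeierstrassCurve.b₂]
  linear_combination ((EQ W).a₁ + 2 * h.node.s + h.node.u) * h.node.eq₁ + 4 * h.node.eq₂

theorem node_b₄ : (EQ W).b₄ + h.node.r * (EQ W).b₂ + 6 * h.node.r ^ 2 = 0 := by
  rw [WeierstrassCurve.b₂, WeierstrassCurve.b₄]
  linear_combination 2 * h.node.eq₄ + ((EQ W).a₁ + 2 * h.node.s) * h.node.eq₃

theorem node_b₆ : (EQ W).b₆ + 2 * h.node.r * (EQ W).b₄ + h.node.r ^ 2 * (EQ W).b₂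
    + 4 * h.node.r ^ 3 = 4 * h.node.u ^ 6 * h.node.a := by
  rw [WeierstrassCurve.b₂, WeierstrassCurve.b₄, WeierstrassCurve.b₆]
  linear_combination ((EQ W).a₃ + h.node.r * (EQ W).a₁ + 2 * h.node.t) * h.node.eq₃
    + 4 * h.node.eq₆

theorem eq_r_add (v : Qbar) : v = h.node.r + h.node.u ^ 2 * h.node.X v := by
  have := h.node.u_ne_zero
  rw [NodeData.X]
  field_simp
  ring

theorem tt_node (v : Qbar) :
    tt (EQ W) v = h.node.u ^ 4 * (6 * h.node.X v ^ 2 + h.node.X v) := by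
  conv_lhs => rw [eq_r_add h v]
  rw [tt]
  linear_combination (h.node.u ^ 2 * h.node.X v) * node_b₂ h + node_b₄ h

theorem psi_node (v : Qbar) :
    psi (EQ W) v = h.node.u ^ 6 * (4 * h.node.X v ^ 3 + h.node.X v ^ 2 + 4 * h.node.a) := by
  conv_lhs => rw [eq_r_add h v]
  rw [psi]
  linear_combination (h.node.u ^ 4 * h.node.X v ^ 2) * node_b₂ h
    + (2 * (h.node.u ^ 2 * h.node.X v)) * node_b₄ h + node_b₆ h

/-- The sum `Σ (6X² + X)` in nodal coordinates. -/
def nT : Qbar := ∑ v ∈ xs (EQ W) ι, (6 * h.node.X v ^ 2 + h.node.X v)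

/-- The sum `Σ (10X³ + 2X²)` in nodal coordinates. -/
def nW : Qbar := ∑ v ∈ xs (EQ W) ι, (10 * h.node.X v ^ 3 + 2 * h.node.X v ^ 2)

theorem qT_node : qT (EQ W) ι = h.node.u ^ 4 * nT h ι := by
  rw [qT, nT, mul_sum]
  exact sum_congr rfl fun v _ => tt_node h v

theorem qW_node : qW (EQ W) ι = h.node.u ^ 6 * (nW h ι + (xs (EQ W) ι).card * (4 * h.node.a))
    + h.node.r * (h.node.u ^ 4 * nT h ι) := by
  have : ∀ v ∈ xs (EQ W) ι, psi (EQ W) v + v * tt (EQ W) v =
      h.node.u ^ 6 * ((10 * h.node.X v ^ 3 + 2 * h.node.X v ^ 2) + 4 * h.node.a)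
        + h.node.r * (h.node.u ^ 4 * (6 * h.node.X v ^ 2 + h.node.X v)) := fun v _ => by
    rw [psi_node h, tt_node h]
    conv_lhs => arg 2; arg 1; rw [eq_r_add h v]
    ring
  rw [qW, sum_congr rfl this, sum_add_distrib, ← mul_sum, ← mul_sum, ← mul_sum, sum_add_distrib,
    sum_const, nsmul_eq_mul, nT, nW]

theorem quot_change : h.node.change • quot (EQ W) ι =
    ⟨1, 0, 0, -5 * nT h ι,
      h.node.a - nT h ι - 7 * (nW h ι + (xs (EQ W) ι).card * (4 * h.node.a))⟩ := by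
  have hu := h.node.u_ne_zero
  ext
  · simp only [NodeData.change, variableChange_a₁, Units.val_inv_eq_inv_val, Units.val_mk0, quot]
    field_simp; linear_combination h.node.eq₁
  · simp only [NodeData.change, variableChange_a₂, Units.val_inv_eq_inv_val, Units.val_mk0, quot]
    field_simp; linear_combination h.node.eq₂
  · simp only [NodeData.change, variableChange_a₃, Units.val_inv_eq_inv_val, Units.val_mk0, quot]
    field_simp; linear_combination h.node.eq₃
  · simp only [NodeData.change, variableChange_a₄, Units.val_inv_eq_inv_val, Units.val_mk0, quot]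
    field_simp; linear_combination h.node.eq₄ - 5 * qT_node h ι
  · simp only [NodeData.change, variableChange_a₆, Units.val_inv_eq_inv_val, Units.val_mk0, quot]
    field_simp
    linear_combination h.node.eq₆ - ((EQ W).b₂ + 5 * h.node.r) * qT_node h ι - 7 * qW_node h ι
      - (h.node.u ^ 4 * nT h ι) * node_b₂ h

/-- `x` lies on the identity component. -/
def goodX (v : Qbar) : Prop := 1 ≤ A.valuation (h.node.X v)

variable {ι}

theorem mem_E0_iff_goodX {P : (EQ W).toAffine.Point} (hP : P ≠ 0) :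
    P ∈ h.node.E0 ↔ goodX h (cx (EQ W) P) := by
  rw [NodeData.mem_E0]
  rcases P with _ | ⟨x, y, hxy⟩
  · exact absurd rfl hP
  · rfl

include h in
theorem cx_mem_of_torsion {n : ℕ} (hn : ¬ q ∣ n) {P : (EQ W).toAffine.Point} (hP : n • P = 0) :
    cx (EQ W) P ∈ A ∧ cy (EQ W) P ∈ A := by
  rcases P with _ | ⟨x, y, hxy⟩
  · exact ⟨A.zero_mem, A.zero_mem⟩
  have hx : x ∈ A := by
    by_contra hx
    exact Affine.Point.some_ne_zero hxy (eq_zero_of_redTo_zero_of_nsmul_eq_zero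
      (reduces_intModel W (IsLocalRing.residue A)) (RedTo.of_notMem hx)
      (natCast_ne_zero_of_liesOverPrime (IsLocalRing.residue A) h.prime h.liesOver hn) hP)
  exact ⟨hx, (reduces_intModel W (IsLocalRing.residue A)).y_mem hxy.1 hx⟩

local notation "κ" => IsLocalRing.ResidueField A
local notation "π" => IsLocalRing.residue A

theorem mem_of_v_le {z : Qbar} (hz : A.valuation z ≤ 1) : z ∈ A := (A.valuation_le_one_iff z).1 hz

theorem res_node : (∃ u₀, u₀ ≠ 0 ∧ Res π h.node.u u₀) ∧ (∃ r₀, Res π h.node.r r₀) ∧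
    (∃ s₀, Res π h.node.s s₀) ∧ (∃ t₀, Res π h.node.t t₀) ∧ Res π h.node.a 0 := by
  refine ⟨⟨_, fun h0 => ?_, Res.of_mem π (mem_of_v_le h.node.hu.le)⟩,
    ⟨_, Res.of_mem π (mem_of_v_le h.node.hr)⟩, ⟨_, Res.of_mem π (mem_of_v_le h.node.hs)⟩,
    ⟨_, Res.of_mem π (mem_of_v_le h.node.ht)⟩, v_lt_one_iff_res.1 h.node.ha⟩
  have := v_lt_one_iff_res.2 (h0 ▸ Res.of_mem π (mem_of_v_le h.node.hu.le))
  rw [h.node.hu] at this
  exact lt_irrefl _ this

theorem res_X {x : Qbar} (hx : x ∈ A) : ∃ g : κ, Res π (h.node.X x) g := by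
  obtain ⟨⟨u₀, hu₀, hu⟩, ⟨r₀, hr⟩, -, -, -⟩ := res_node h
  exact ⟨_, ((Res.of_mem π hx).sub hr).div (hu.pow 2) (pow_ne_zero 2 hu₀)⟩

theorem res_Y {x y : Qbar} (hx : x ∈ A) (hy : y ∈ A) : ∃ g : κ, Res π (h.node.Y x y) g := by
  obtain ⟨⟨u₀, hu₀, hu⟩, ⟨r₀, hr⟩, ⟨s₀, hs⟩, ⟨t₀, ht⟩, -⟩ := res_node h
  exact ⟨_, (((Res.of_mem π hy).sub (hs.mul ((Res.of_mem π hx).sub hr))).sub ht).div (hu.pow 3)
    (pow_ne_zero 3 hu₀)⟩

/-- The residue of the nodal abscissa (junk `0` for nonintegral ones). -/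
def gam (v : Qbar) : κ := if hv : h.node.X v ∈ A then π ⟨_, hv⟩ else 0

theorem res_gam {v : Qbar} (hv : v ∈ A) : Res π (h.node.X v) (gam h v) := by
  obtain ⟨g, hm, hg⟩ := res_X h hv
  refine ⟨hm, ?_⟩
  rw [gam, dif_pos hm]

theorem gam_of_not_good {v : Qbar} (hv : ¬ goodX h v) : gam h v = 0 := by
  have hlt : A.valuation (h.node.X v) < 1 := not_le.1 hv
  rw [gam, dif_pos (mem_of_v_le hlt.le)]
  exact (Res.of_mem π (mem_of_v_le hlt.le)).unique (v_lt_one_iff_res.1 hlt)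

/-- The multiplicative residue of a point of the identity component. -/
def zz (P : h.node.E0) : κ := (h.red P).toMul

theorem zz_add (P Q : h.node.E0) : zz h (P + Q) = zz h P * zz h Q := by
  rw [zz, zz, zz, map_add, toMul_add]

theorem zz_pow {n : ℕ} {P : h.node.E0} (hP : n • (P : (EQ W).toAffine.Point) = 0) :
    zz h P ^ n = 1 := by
  have : n • P = 0 := Subtype.ext (by simpa using hP)
  rw [zz, ← toMul_nsmul, ← map_nsmul, this, map_zero, toMul_zero]

theorem zz_eq_one_iff {n : ℕ} (hn : ¬ q ∣ n) {P : h.node.E0}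
    (hP : n • (P : (EQ W).toAffine.Point) = 0) : zz h P = 1 ↔ P = 0 := by
  constructor
  · intro h1
    exact h.eq_zero_of_red_eq_zero (P := P) h1 hn (Subtype.ext (by simpa using hP))
  · rintro rfl
    rw [zz, map_zero, toMul_zero]

theorem gam_eq {n : ℕ} (hn : ¬ q ∣ n) {P : h.node.E0} (hP0 : P ≠ 0)
    (hP : n • (P : (EQ W).toAffine.Point) = 0) :
    zz h P ≠ 1 ∧ zz h P ≠ 0 ∧
      gam h (cx (EQ W) (P : (EQ W).toAffine.Point)) = zz h P / (1 - zz h P) ^ 2 := by
  have hn0 : n ≠ 0 := fun h0 => hn (h0 ▸ dvd_zero q)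
  have hz1 : zz h P ≠ 1 := fun e => hP0 ((zz_eq_one_iff h hn hP).1 e)
  have hz0 : zz h P ≠ 0 := fun e => by simpa [e, hn0] using zz_pow h hP
  refine ⟨hz1, hz0, ?_⟩
  obtain ⟨P, hPE⟩ := P
  rcases P with _ | ⟨x, y, hxy⟩
  · exact absurd rfl hP0
  obtain ⟨hxA, hyA⟩ := cx_mem_of_torsion h hn hP
  simp only [cx_some, cy_some] at hxA hyA ⊢
  have hgood : 1 ≤ A.valuation (h.node.X x) := h.node.mem_E0.1 hPE
  have hX := res_gam h hxA
  obtain ⟨Y₀, hY⟩ := res_Y h hxA hyA
  set g := gam h x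
  have hg : g ≠ 0 := fun e => by
    rw [e] at hX
    exact absurd (v_lt_one_iff_res.2 hX) (not_lt.2 hgood)
  have hon : Y₀ * (g + Y₀) = g ^ 3 := by
    have h1 := (hY.mul (hX.add hY)).unique
      ((h.node.onNode hxy.left).symm ▸ (hX.pow 3).add (res_node h).2.2.2.2)
    simpa using h1
  have hden : g + Y₀ ≠ 0 := fun e => by
    rw [e, mul_zero, eq_comm, pow_eq_zero_iff three_ne_zero] at hon
    exact hg hon
  have hphi : Res π (phi (h.node.X x) (h.node.Y x y)) (Y₀ / (g + Y₀)) :=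
    hY.div (hX.add hY) hden
  have hz : zz h ⟨_, hPE⟩ = Y₀ / (g + Y₀) := by
    obtain ⟨hm, he⟩ := hphi
    rw [← he]
    rfl
  rw [hz, show 1 - Y₀ / (g + Y₀) = g / (g + Y₀) by field_simp; ring]
  field_simp
  linear_combination -hon

variable (hι : Function.Injective ι) (hodd : Odd (Nat.card G)) (hq : ¬ q ∣ Nat.card G)

/-- The part of the subgroup on the identity component. -/
def G₀ (ι : G →+ (EQ W).toAffine.Point) : AddSubgroup G := h.node.E0.comap ι

/-- A member of that part, as a point of the identity component. -/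
def ι₀ (ι : G →+ (EQ W).toAffine.Point) : G₀ h ι →+ h.node.E0 :=
  AddMonoidHom.mk' (fun u => ⟨ι u, u.2⟩) fun a b => Subtype.ext (map_add ι (a : G) b)

omit [Fintype G] in
theorem nsmul_ι (u : G) : Nat.card G • ι u = 0 := by
  rw [← map_nsmul, card_nsmul_eq_zero', map_zero]

include hι hq in
theorem zz_ι_injective : Function.Injective fun u : G₀ h ι => zz h (ι₀ h ι u) := by
  intro a b e
  have hm : Nat.card G • ((ι₀ h ι (a - b) : h.node.E0) : (EQ W).toAffine.Point) = 0 :=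
    nsmul_ι (ι := ι) ((a : G) - b)
  have hb : zz h (ι₀ h ι b) ≠ 0 := fun e0 => by
    have := zz_pow h (n := Nat.card G) (P := ι₀ h ι b) (nsmul_ι (ι := ι) (b : G))
    rw [e0, zero_pow Nat.card_pos.ne'] at this
    exact zero_ne_one this
  have h1 : zz h (ι₀ h ι (a - b)) = 1 := by
    have := zz_add h (ι₀ h ι (a - b)) (ι₀ h ι b)
    rw [← map_add, sub_add_cancel] at this
    exact mul_eq_right₀ hb |>.1 (this.symm.trans e)
  have h0 := congrArg (fun P : h.node.E0 => (P : (EQ W).toAffine.Point))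
    ((zz_eq_one_iff h hq hm).1 h1)
  exact sub_eq_zero.1 (Subtype.ext (hι (h0.trans (map_zero ι).symm)))

/-- The residues of the abscissae of the part on the identity component. -/
def gamSet (ι : G →+ (EQ W).toAffine.Point) : Finset κ :=
  ((xs (EQ W) ι).filter (goodX h)).image (gam h)

theorem exists_of_mem_filter {v : Qbar} (hι : Function.Injective ι)
    (hv : v ∈ (xs (EQ W) ι).filter (goodX h)) :
    ∃ u : G₀ h ι, u ≠ 0 ∧ ι₀ h ι u ≠ 0 ∧ cx (EQ W) (ι u) = v := by
  obtain ⟨hv, hg⟩ := mem_filter.1 hv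
  obtain ⟨u, hu, rfl⟩ := mem_image.1 hv
  have hu0 := (mem_filter.1 hu).2
  have hne := ι_ne_zero hι hu0
  exact ⟨⟨u, (mem_E0_iff_goodX h hne).2 hg⟩, fun e => hu0 (congrArg Subtype.val e),
    fun e => hne (congrArg Subtype.val e), rfl⟩

include hι hq in
theorem gam_injOn : Set.InjOn (gam h) ((xs (EQ W) ι).filter (goodX h) : Set Qbar) := by
  intro v hv w hw e
  obtain ⟨a, ha0, ha, rfl⟩ := exists_of_mem_filter h hι hv
  obtain ⟨b, hb0, hb, rfl⟩ := exists_of_mem_filter h hι hw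
  obtain ⟨a1, a0, ea⟩ := gam_eq h hq ha (nsmul_ι (ι := ι) (a : G))
  obtain ⟨b1, b0, eb⟩ := gam_eq h hq hb (nsmul_ι (ι := ι) (b : G))
  have e' : zz h (ι₀ h ι a) / (1 - zz h (ι₀ h ι a)) ^ 2 =
      zz h (ι₀ h ι b) / (1 - zz h (ι₀ h ι b)) ^ 2 := ea.symm.trans (e.trans eb)
  rw [div_eq_div_iff (pow_ne_zero 2 (sub_ne_zero.2 (Ne.symm a1)))
    (pow_ne_zero 2 (sub_ne_zero.2 (Ne.symm b1)))] at e'
  have : (zz h (ι₀ h ι a) - zz h (ι₀ h ι b)) * (1 - zz h (ι₀ h ι a) * zz h (ι₀ h ι b)) = 0 := by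
    linear_combination e'
  rcases mul_eq_zero.1 this with e'' | e''
  · rw [zz_ι_injective h hι hq (sub_eq_zero.1 e'')]
  · have : a = -b := zz_ι_injective h hι hq (by
      show zz h (ι₀ h ι a) = zz h (ι₀ h ι (-b))
      have hnb := zz_add h (ι₀ h ι (-b)) (ι₀ h ι b)
      rw [← map_add, neg_add_cancel, map_zero, zz, map_zero, toMul_zero] at hnb
      refine mul_right_cancel₀ b0 ?_
      rw [← hnb]
      exact (sub_eq_zero.1 e'').symm)
    rw [this]
    simp

include hι hodd hq in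
theorem gamSet_props :
    2 * (gamSet h ι).card + 1 = Fintype.card (G₀ h ι) ∧
    ((Fintype.card (G₀ h ι) : ℕ) : κ) ≠ 0 ∧
    (∀ g ∈ gamSet h ι, ∃ z : κ, z ^ Fintype.card (G₀ h ι) = 1 ∧ z ≠ 1 ∧ g = z / (1 - z) ^ 2) := by
  refine ⟨?_, ?_, ?_⟩
  · rw [gamSet, card_image_of_injOn (gam_injOn h hι hq), card_filter]
    have := sum_ne_zero_eq (V := EQ W) hι hodd fun v => if goodX h v then 1 else 0
    simp only [smul_eq_mul] at this
    rw [← this, ← card_filter, filter_filter]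
    rw [show Fintype.card (G₀ h ι) = (univ.filter fun u : G => u ∈ G₀ h ι).card from
      Fintype.card_subtype _, ← card_erase_add_one (a := (0 : G))
        (s := univ.filter fun u : G => u ∈ G₀ h ι)
        (by simp)]
    congr 1
    refine congrArg card (ext fun u => ?_)
    simp only [mem_filter, mem_univ, true_and, mem_erase]
    exact and_congr_right fun hu => (mem_E0_iff_goodX h (ι_ne_zero hι hu)).symm
  · intro h0
    have hdvd : Fintype.card (G₀ h ι) ∣ Nat.card G := by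
      rw [← Nat.card_eq_fintype_card]
      exact AddSubgroup.card_addSubgroup_dvd_card _
    exact natCast_ne_zero_of_liesOverPrime π h.prime h.liesOver (fun hd => hq (hd.trans hdvd)) h0
  · intro g hg
    obtain ⟨v, hv, rfl⟩ := mem_image.1 hg
    obtain ⟨u, hu0, hu, rfl⟩ := exists_of_mem_filter h hι hv
    obtain ⟨z1, -, e⟩ := gam_eq h hq hu (nsmul_ι (ι := ι) (u : G))
    refine ⟨_, zz_pow h ?_, z1, e⟩
    have := congrArg Subtype.val (card_nsmul_eq_zero (G := G₀ h ι) (x := u))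
    simp only [AddSubgroup.coe_nsmul, AddSubgroup.coe_zero] at this
    show Fintype.card (G₀ h ι) • ι u = 0
    rw [← map_nsmul, this, map_zero]

include hι hq in
theorem res_sum_xs {F : Qbar → Qbar} {F₀ : κ → κ} (h0 : F₀ 0 = 0)
    (hF : ∀ v, v ∈ A → Res π (F v) (F₀ (gam h v))) :
    Res π (∑ v ∈ xs (EQ W) ι, F v) (∑ g ∈ gamSet h ι, F₀ g) := by
  rw [gamSet, sum_image (gam_injOn h hι hq)]
  rw [sum_filter_of_ne fun v _ hne => by_contra fun hg => hne (by rw [gam_of_not_good h hg, h0])]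
  refine res_sum fun v hv => hF v ?_
  obtain ⟨u, -, rfl⟩ := mem_image.1 hv
  exact (cx_mem_of_torsion h hq (nsmul_ι (ι := ι) u)).1

include hι hq in
theorem res_nT : Res π (nT h ι) (∑ g ∈ gamSet h ι, (6 * g ^ 2 + g)) :=
  res_sum_xs h hι hq (F₀ := fun g => 6 * g ^ 2 + g) (by simp) fun _ hv =>
    ((Res.ofNat 6).mul ((res_gam h hv).pow 2)).add (res_gam h hv)

include hι hq in
theorem res_nW : Res π (nW h ι) (∑ g ∈ gamSet h ι, (10 * g ^ 3 + 2 * g ^ 2)) :=
  res_sum_xs h hι hq (F₀ := fun g => 10 * g ^ 3 + 2 * g ^ 2) (by simp) fun _ hv =>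
    ((Res.ofNat 10).mul ((res_gam h hv).pow 3)).add ((Res.ofNat 2).mul ((res_gam h hv).pow 2))

include hι hq in
theorem reduces_change : Reduces π (h.node.change • quot (EQ W) ι)
    ⟨1, 0, 0, -5 * ∑ g ∈ gamSet h ι, (6 * g ^ 2 + g),
      -(∑ g ∈ gamSet h ι, (6 * g ^ 2 + g)) - 7 * ∑ g ∈ gamSet h ι, (10 * g ^ 3 + 2 * g ^ 2)⟩ := by
  rw [quot_change]
  have ha := (res_node h).2.2.2.2
  refine ⟨Res.one, Res.zero, Res.zero, ((Res.ofNat 5).neg.mul (res_nT h hι hq)), ?_⟩
  have := (ha.sub (res_nT h hι hq)).sub ((Res.ofNat 7).mul ((res_nW h hι hq).add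
    ((Res.natCast (xs (EQ W) ι).card).mul ((Res.ofNat 4).mul ha))))
  simpa using this

include h hι hodd hq in
/-- The quotient is integral with multiplicative reduction. -/
theorem node_mult : qT (EQ W) ι ∈ A ∧ qW (EQ W) ι ∈ A ∧
    A.valuation (quot (EQ W) ι).Δ < 1 ∧ A.valuation (quot (EQ W) ι).c₄ = 1 := by
  obtain ⟨⟨u₀, hu₀, hu⟩, ⟨r₀, hr⟩, -, -, ha⟩ := res_node h
  have hT := res_nT h hι hq
  have hW := res_nW h hι hq
  refine ⟨?_, ?_, ?_⟩
  · rw [qT_node h]; exact ((hu.pow 4).mul hT).mem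
  · rw [qW_node h]
    exact (((hu.pow 6).mul (hW.add ((Res.natCast (xs (EQ W) ι).card).mul
      ((Res.ofNat 4).mul ha)))).add (hr.mul ((hu.pow 4).mul hT))).mem
  obtain ⟨hcard, hm, hroot⟩ := gamSet_props h hι hodd hq
  rw [← hcard] at hm hroot
  obtain ⟨J1, J2, -⟩ := nodal_invariants hm (gamSet h ι) rfl hroot
  have hred := reduces_change h hι hq
  have hΔ := hred.res_Δ
  rw [J2] at hΔ
  have hc : A.valuation (h.node.change • quot (EQ W) ι).c₄ = 1 := by
    have hres : Res π (h.node.change • quot (EQ W) ι).c₄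
        (((2 * (gamSet h ι).card + 1 : ℕ) : κ) ^ 4) := by
      rw [← J1]
      have := ((res_b₂ hred).pow 2).sub ((Res.ofNat 24).mul (res_b₄ hred))
      rw [WeierstrassCurve.c₄]
      convert this using 1
      simp only [WeierstrassCurve.b₂, WeierstrassCurve.b₄]
      ring
    refine le_antisymm ((A.valuation_le_one_iff _).2 hres.mem) (not_lt.1 fun hlt => ?_)
    exact pow_ne_zero 4 hm (hres.unique (v_lt_one_iff_res.1 hlt))
  rw [variableChange_c₄] at hc
  have hΔ' := v_lt_one_iff_res.2 hΔ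
  rw [variableChange_Δ] at hΔ'
  simp only [NodeData.change, Units.val_inv_eq_inv_val, Units.val_mk0, map_mul, map_pow, map_inv₀,
    h.node.hu, inv_one, one_pow, one_mul] at hc hΔ'
  exact ⟨hΔ', hc⟩

include hι hodd hq in
/-- A torsion point of the identity component outside the subgroup has nonsingular image. -/
theorem node_nonsingular {n : ℕ} (hn : ¬ q ∣ n) {P : (EQ W).toAffine.Point} (hPn : n • P = 0)
    (hP : P ∈ h.node.E0) (hout : Outside (EQ W) ι P)
    (heq : (quot (EQ W) ι).toAffine.Equation (qX (EQ W) ι P) (qY (EQ W) ι P)) :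
    qX (EQ W) ι P ∈ A ∧ qY (EQ W) ι P ∈ A ∧
      ¬(A.valuation ((quot (EQ W) ι).a₁ * qY (EQ W) ι P - (3 * qX (EQ W) ι P ^ 2
          + 2 * (quot (EQ W) ι).a₂ * qX (EQ W) ι P + (quot (EQ W) ι).a₄)) < 1 ∧
        A.valuation (2 * qY (EQ W) ι P + (quot (EQ W) ι).a₁ * qX (EQ W) ι P
          + (quot (EQ W) ι).a₃) < 1) := by
  have hnG : ¬ q ∣ n * Nat.card G := fun hd => (h.prime.dvd_mul.1 hd).elim hn hq
  have htor : ∀ u : G, (n * Nat.card G) • (P + ι u) = 0 := fun u => by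
    rw [nsmul_add, mul_comm, mul_nsmul', hPn, nsmul_zero, zero_add, mul_comm, mul_nsmul',
      nsmul_ι, nsmul_zero]
  have hmem1 := fun u => cx_mem_of_torsion h hnG (htor u)
  have hmem2 := fun u => cx_mem_of_torsion h hq (nsmul_ι (ι := ι) u)
  have hXA : qX (EQ W) ι P ∈ A :=
    sub_mem (sum_mem fun u _ => (hmem1 u).1) (sum_mem fun u _ => (hmem2 u).1)
  have hYA : qY (EQ W) ι P ∈ A :=
    sub_mem (sum_mem fun u _ => (hmem1 u).2) (sum_mem fun u _ => (hmem2 u).2)
  refine ⟨hXA, hYA, ?_⟩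
  -- the nodal abscissa of the image
  have hexact : h.node.X (qX (EQ W) ι P) = ∑ u : G, h.node.X (cx (EQ W) (P + ι u))
      - ∑ u ∈ univ.filter (fun u : G => u ≠ 0), h.node.X (cx (EQ W) (ι u)) := by
    have hu := h.node.u_ne_zero
    simp only [qX, NodeData.X, ← sum_div, sum_sub_distrib, sum_const, nsmul_eq_mul, filter_ne',
      card_erase_of_mem (mem_univ (0 : G)), card_univ,
      Nat.cast_sub (Fintype.card_pos (α := G) : 1 ≤ Fintype.card G), Nat.cast_one]
    rw [← add_sum_erase _ (fun u => cx (EQ W) (ι u)) (mem_univ (0 : G)), map_zero, cx_zero,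
      zero_add]
    field_simp
    ring
  obtain ⟨hcard, hm, hroot⟩ := gamSet_props h hι hodd hq
  set m := Fintype.card (G₀ h ι)
  let μ : Finset κ := univ.image fun u : G₀ h ι => zz h (ι₀ h ι u)
  have hμcard : μ.card = m := card_image_of_injective _ (zz_ι_injective h hι hq)
  have hμ : ∀ ζ ∈ μ, ζ ^ m = 1 := fun ζ hζ => by
    obtain ⟨u, -, rfl⟩ := mem_image.1 hζ
    refine zz_pow h ?_
    have := congrArg Subtype.val (card_nsmul_eq_zero (G := G₀ h ι) (x := u))
    simp only [AddSubgroup.coe_nsmul, AddSubgroup.coe_zero] at this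
    show m • ι u = 0
    rw [← map_nsmul, this, map_zero]
  set Pz : h.node.E0 := ⟨P, hP⟩
  set z := zz h Pz
  have hm0 : 0 < m := Fintype.card_pos
  have hzm : z ^ m ≠ 1 := by
    intro e
    have hall : μ = Polynomial.nthRootsFinset m (1 : κ) := eq_of_subset_of_card_le
      (fun ζ hζ => (Polynomial.mem_nthRootsFinset hm0 _).mpr (hμ ζ hζ)) (by
        rw [hμcard, Polynomial.nthRootsFinset_def]
        exact (Multiset.toFinset_card_le _).trans (Polynomial.card_nthRoots m 1))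
    have hz : z ∈ μ := hall ▸ (Polynomial.mem_nthRootsFinset hm0 _).mpr e
    obtain ⟨u, -, hu⟩ := mem_image.1 hz
    have h1 : zz h (Pz + ι₀ h ι (-u)) = 1 := by
      have h2 := zz_add h (ι₀ h ι u) (ι₀ h ι (-u))
      rw [← map_add, add_neg_cancel, map_zero, zz, map_zero, toMul_zero] at h2
      rw [zz_add, show zz h Pz = zz h (ι₀ h ι u) from hu.symm]
      exact h2.symm
    have h3 := congrArg Subtype.val ((zz_eq_one_iff h hnG (htor (-u : G₀ h ι))).1 h1)
    exact hout.add_ne_zero _ h3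
  have hterm : ∀ u : G, Res π (h.node.X (cx (EQ W) (P + ι u)))
      (if hu : u ∈ G₀ h ι then zz h (ι₀ h ι ⟨u, hu⟩) * z / (1 - zz h (ι₀ h ι ⟨u, hu⟩) * z) ^ 2
        else 0) := by
    intro u
    have hres := res_gam h (hmem1 u).1
    split_ifs with hu
    · have hPu : (Pz + ι₀ h ι ⟨u, hu⟩) ≠ 0 := fun e =>
        hout.add_ne_zero u (congrArg Subtype.val e)
      obtain ⟨-, -, e⟩ := gam_eq h hnG hPu (htor u)
      rw [zz_add, mul_comm] at e
      exact e ▸ hres
    · rw [← gam_of_not_good h (v := cx (EQ W) (P + ι u)) fun hg => hu ?_]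
      · exact hres
      · have := (mem_E0_iff_goodX h (hout.add_ne_zero u)).2 hg
        simpa [G₀] using h.node.E0.sub_mem this hP
  have hsum : Res π (h.node.X (qX (EQ W) ι P))
      ((m : κ) ^ 2 * z ^ m / (1 - z ^ m) ^ 2 - 2 * ∑ g ∈ gamSet h ι, g) := by
    rw [hexact]
    refine Res.sub ?_ ?_
    · have := res_sum (s := (univ : Finset G)) fun u _ => hterm u
      rwa [← Fintype.sum_of_injective (fun u : G₀ h ι => (u : G)) Subtype.val_injective
          (fun u => zz h (ι₀ h ι u) * z / (1 - zz h (ι₀ h ι u) * z) ^ 2)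
          (fun u => if hu : u ∈ G₀ h ι then
            zz h (ι₀ h ι ⟨u, hu⟩) * z / (1 - zz h (ι₀ h ι ⟨u, hu⟩) * z) ^ 2 else 0)
          (fun u hu => dif_neg fun hu' => hu ⟨⟨u, hu'⟩, rfl⟩) (fun u => by rw [dif_pos u.2]),
        show ∑ u : G₀ h ι, zz h (ι₀ h ι u) * z / (1 - zz h (ι₀ h ι u) * z) ^ 2 =
          ∑ ζ ∈ μ, ζ * z / (1 - ζ * z) ^ 2 from
          (sum_image (f := fun ζ => ζ * z / (1 - ζ * z) ^ 2)
            (g := fun u : G₀ h ι => zz h (ι₀ h ι u)) (s := univ)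
            fun a _ b _ e => zz_ι_injective h hι hq e).symm,
        sum_translates hm μ hμcard hμ hzm] at this
    · rw [sum_ne_zero_eq hι hodd h.node.X, nsmul_eq_mul, Nat.cast_ofNat]
      exact (Res.ofNat 2).mul (res_sum_xs h hι hq (F₀ := fun g => g) rfl fun _ hv =>
        res_gam h hv)
  obtain ⟨Y₀, hY⟩ := res_Y h hXA hYA
  set a₄ := -5 * ∑ g ∈ gamSet h ι, (6 * g ^ 2 + g) with ha₄
  set a₆ := -(∑ g ∈ gamSet h ι, (6 * g ^ 2 + g)) -
    7 * ∑ g ∈ gamSet h ι, (10 * g ^ 3 + 2 * g ^ 2) with ha₆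
  set X₀ := (m : κ) ^ 2 * z ^ m / (1 - z ^ m) ^ 2 - 2 * ∑ g ∈ gamSet h ι, g
  have hred := reduces_change h hι hq
  have hu := h.node.u_ne_zero
  have heq' : (h.node.change • quot (EQ W) ι).toAffine.Equation (h.node.X (qX (EQ W) ι P))
      (h.node.Y (qX (EQ W) ι P) (qY (EQ W) ι P)) := by
    rw [Affine.equation_iff] at heq ⊢
    simp only [NodeData.change, variableChange_a₁, variableChange_a₂, variableChange_a₃,
      variableChange_a₄, variableChange_a₆, Units.val_inv_eq_inv_val, Units.val_mk0, NodeData.X,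
      NodeData.Y]
    field_simp
    linear_combination heq
  have heq₀ := (Affine.equation_iff X₀ Y₀).1 (hred.equation heq' hsum hY)
  simp only [one_mul, zero_mul, add_zero] at heq₀
  rintro ⟨hFx, hFy⟩
  rw [v_lt_one_iff_res] at hFx hFy
  obtain ⟨⟨u₀, hu₀, hu'⟩, -, ⟨s₀, hs⟩, -, -⟩ := res_node h
  have eY : 2 * Y₀ + X₀ = 0 := by
    have e : 2 * qY (EQ W) ι P + (quot (EQ W) ι).a₁ * qX (EQ W) ι P + (quot (EQ W) ι).a₃ =
        h.node.u ^ 3 * (2 * h.node.Y (qX (EQ W) ι P) (qY (EQ W) ι P)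
          + h.node.X (qX (EQ W) ι P)) := by
      simp only [quot, NodeData.X, NodeData.Y]
      field_simp
      linear_combination (qX (EQ W) ι P - h.node.r) * h.node.eq₁ + h.node.eq₃
    rw [e] at hFy
    have := ((hu'.pow 3).mul (((Res.ofNat 2).mul hY).add hsum)).unique hFy
    exact (mul_eq_zero.1 this).resolve_left (pow_ne_zero 3 hu₀)
  have eX : Y₀ - (3 * X₀ ^ 2 + a₄) = 0 := by
    have h4 := congrArg WeierstrassCurve.a₄ (quot_change h ι)
    simp only [NodeData.change, variableChange_a₄, Units.val_inv_eq_inv_val, Units.val_mk0] at h4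
    have e : (quot (EQ W) ι).a₁ * qY (EQ W) ι P - (3 * qX (EQ W) ι P ^ 2
          + 2 * (quot (EQ W) ι).a₂ * qX (EQ W) ι P + (quot (EQ W) ι).a₄) =
        h.node.u ^ 4 * (h.node.Y (qX (EQ W) ι P) (qY (EQ W) ι P)
          - (3 * h.node.X (qX (EQ W) ι P) ^ 2 + -5 * nT h ι))
        - h.node.s * (2 * qY (EQ W) ι P + (quot (EQ W) ι).a₁ * qX (EQ W) ι P
          + (quot (EQ W) ι).a₃) := by
      have e1 : (quot (EQ W) ι).a₁ = (EQ W).a₁ := rfl
      have e2 : (quot (EQ W) ι).a₂ = (EQ W).a₂ := rfl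
      have e3 : (quot (EQ W) ι).a₃ = (EQ W).a₃ := rfl
      rw [e1, e2, e3] at h4 ⊢
      simp only [NodeData.X, NodeData.Y]
      field_simp at h4 ⊢
      linear_combination -h4 +
        (qY (EQ W) ι P - h.node.t - h.node.s * (qX (EQ W) ι P - h.node.r)) * h.node.eq₁
        - (2 * (qX (EQ W) ι P - h.node.r)) * h.node.eq₂
    rw [e] at hFx
    have := (((hu'.pow 4).mul (hY.sub (((Res.ofNat 3).mul (hsum.pow 2)).add
      ((Res.ofNat 5).neg.mul (res_nT h hι hq))))).sub (hs.mul hFy)).unique hFx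
    rw [mul_zero, sub_zero] at this
    exact (mul_eq_zero.1 this).resolve_left (pow_ne_zero 4 hu₀)
  rw [← hcard] at hm hroot
  obtain ⟨J1, -, J3⟩ := nodal_invariants hm (gamSet h ι) rfl hroot
  simp only [← ha₄, ← ha₆] at J1 J3
  have key : (1 - 48 * a₄) * X₀ = 72 * a₆ - 2 * a₄ := by
    linear_combination 72 * heq₀ - 72 * (Y₀ + 3 * X₀ ^ 2 + X₀ + a₄) * eX +
      ((12 * X₀ + 1) - 18 * (6 * X₀ ^ 2 + X₀ + 2 * a₄)) * (eY - 2 * eX)
  rw [J1, J3, hcard] at key
  rw [← hcard] at key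
  have : (((2 * (gamSet h ι).card + 1 : ℕ) : κ)) ^ 4 *
      ((m : κ) ^ 2 * z ^ m / (1 - z ^ m) ^ 2) = 0 := by
    linear_combination key
  rw [hcard] at hm this
  have hz0 : z ≠ 0 := fun e => by
    have hn0 : n ≠ 0 := fun h0 => hn (h0 ▸ dvd_zero q)
    have := zz_pow h (n := n) (P := Pz) hPn
    rw [show zz h Pz = 0 from e, zero_pow hn0] at this
    exact zero_ne_one this
  simp [hm, hz0, sub_eq_zero, Ne.symm hzm] at this

end Fermat.Agent.EC.Quotient
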