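import Fermat.Agent.EC.Quotient.Hom
import Fermat.Agent.EC.Quotient.NodeReduce
import Fermat.Agent.Gal.Places
import Fermat.Prelude.Def_EllipticCurve_ZeroComponentAt

/-!
Quotients of elliptic curves over `ℚ` by Galois stable subgroups of odd prime power order, as
integral Weierstrass equations with multiplicative reduction where the curve has it.
-/

set_option autoImplicit false

noncomputable section

namespace Fermat.Agent.EC.Quotient

open WeierstrassCurve Finset Fermat.Agent.EC.Reduction Fermat.Agent.Multiplicative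
open scoped WeierstrassCurve.Affine Classical

local notation "Qbar" => AlgebraicClosure ℚ
local notation "GQ" => (AlgebraicClosure ℚ ≃ₐ[ℚ] AlgebraicClosure ℚ)
local notation "EQ" W => ((WeierstrassCurve.map W (Int.castRingHom ℚ))⁄(AlgebraicClosure ℚ))

variable {W : WeierstrassCurve ℤ}

section Galois

theorem cx_smul (σ : GQ) (P : (EQ W).Point) : cx (EQ W) (σ • P) = σ (cx (EQ W) P) := by
  rcases P with _ | ⟨x, y, h⟩
  · exact (map_zero σ).symm
  · rfl

theorem cy_smul (σ : GQ) (P : (EQ W).Point) : cy (EQ W) (σ • P) = σ (cy (EQ W) P) := by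
  rcases P with _ | ⟨x, y, h⟩
  · exact (map_zero σ).symm
  · rfl

variable (G : AddSubgroup (EQ W).Point) [Fintype G]
  (hst : ∀ σ : GQ, ∀ P ∈ G, σ • P ∈ G)

/-- An automorphism permutes the subgroup. -/
def perm (σ : GQ) : G ≃ G where
  toFun u := ⟨σ • (u : (EQ W).Point), hst σ _ u.2⟩
  invFun u := ⟨σ⁻¹ • (u : (EQ W).Point), hst σ⁻¹ _ u.2⟩
  left_inv u := Subtype.ext (inv_smul_smul σ (u : (EQ W).Point))
  right_inv u := Subtype.ext (smul_inv_smul σ (u : (EQ W).Point))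

include hst in
theorem sum_smul (σ : GQ) (F : (EQ W).Point → Qbar) (P : (EQ W).Point) :
    ∑ u : G, F (σ • P + (u : (EQ W).Point)) = ∑ u : G, F (σ • (P + (u : (EQ W).Point))) :=
  (Fintype.sum_equiv (perm G hst σ) _ _ fun u => congrArg F
    ((Affine.Point.map σ.toAlgHom).map_add P (u : (EQ W).Point))).symm

include hst in
theorem qX_smul (σ : GQ) (P : (EQ W).Point) :
    qX (EQ W) G.subtype (σ • P) = σ (qX (EQ W) G.subtype P) := by
  simp only [qX, AddSubgroup.coe_subtype, map_sub, map_sum, sum_smul G hst σ, cx_smul]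
  congr 1
  exact Fintype.sum_equiv (perm G hst σ).symm _ _ fun u => by
    simp [perm, ← cx_smul]

include hst in
theorem qY_smul (σ : GQ) (P : (EQ W).Point) :
    qY (EQ W) G.subtype (σ • P) = σ (qY (EQ W) G.subtype P) := by
  simp only [qY, AddSubgroup.coe_subtype, map_sub, map_sum, sum_smul G hst σ, cy_smul]
  congr 1
  exact Fintype.sum_equiv (perm G hst σ).symm _ _ fun u => by
    simp [perm, ← cy_smul]

include hst in
theorem sum_xs_fixed (σ : GQ) {F : Qbar → Qbar} (hF : ∀ v, σ (F v) = F (σ v)) :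
    σ (∑ v ∈ xs (EQ W) G.subtype, F v) = ∑ v ∈ xs (EQ W) G.subtype, F v := by
  have himg : (xs (EQ W) G.subtype).image σ = xs (EQ W) G.subtype := by
    refine eq_of_subset_of_card_le (fun x hx => ?_)
      (by rw [card_image_of_injective _ σ.injective])
    obtain ⟨v, hv, rfl⟩ := mem_image.1 hx
    obtain ⟨u, hu, rfl⟩ := mem_image.1 hv
    refine mem_image.2 ⟨perm G hst σ u, ?_, cx_smul σ (u : (EQ W).Point)⟩
    simp only [mem_filter, mem_univ, true_and] at hu ⊢
    refine fun h0 => hu ((perm G hst σ).injective (h0.trans (Subtype.ext ?_)))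
    exact (map_zero (Affine.Point.map σ.toAlgHom)).symm
  rw [map_sum]
  conv_rhs => rw [← himg, sum_image σ.injective.injOn]
  exact sum_congr rfl fun v _ => hF v

theorem tt_smul (σ : GQ) (v : Qbar) : σ (tt (EQ W) v) = tt (EQ W) (σ v) := by
  simp [tt, WeierstrassCurve.b₂, WeierstrassCurve.b₄, WeierstrassCurve.baseChange, map_ofNat]

theorem psi_smul (σ : GQ) (v : Qbar) : σ (psi (EQ W) v) = psi (EQ W) (σ v) := by
  simp [psi, WeierstrassCurve.b₂, WeierstrassCurve.b₄, WeierstrassCurve.b₆,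
    WeierstrassCurve.baseChange, map_ofNat]

include hst in
theorem exists_rat_coeffs : ∃ r₄ r₆ : ℚ, (quot (EQ W) G.subtype).a₄ = (r₄ : Qbar) ∧
    (quot (EQ W) G.subtype).a₆ = (r₆ : Qbar) := by
  have hfix : ∀ σ : GQ, σ (quot (EQ W) G.subtype).a₄ = (quot (EQ W) G.subtype).a₄ ∧
      σ (quot (EQ W) G.subtype).a₆ = (quot (EQ W) G.subtype).a₆ := by
    intro σ
    have hT : σ (qT (EQ W) G.subtype) = qT (EQ W) G.subtype :=
      sum_xs_fixed G hst σ (tt_smul σ)
    have hW : σ (qW (EQ W) G.subtype) = qW (EQ W) G.subtype :=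
      sum_xs_fixed G hst σ fun v => by rw [map_add, map_mul, tt_smul, psi_smul]
    constructor <;>
      simp [quot, hT, hW, WeierstrassCurve.b₂, WeierstrassCurve.baseChange, map_ofNat]
  obtain ⟨r, hr⟩ := (InfiniteGalois.mem_range_algebraMap_iff_fixed _).mpr fun σ => (hfix σ).1
  obtain ⟨s, hs⟩ := (InfiniteGalois.mem_range_algebraMap_iff_fixed _).mpr fun σ => (hfix σ).2
  exact ⟨r, s, by simpa using hr.symm, by simpa using hs.symm⟩

end Galois

section Integrality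

theorem coords_mem_of_torsion {A : ValuationSubring Qbar} {q n : ℕ} (hq : q.Prime)
    (hA : A.LiesOverPrime q) (hn : ¬ q ∣ n) {P : (EQ W).Point} (hP : n • P = 0) :
    cx (EQ W) P ∈ A := by
  rcases P with _ | ⟨x, y, hxy⟩
  · exact A.zero_mem
  by_contra hx
  exact Affine.Point.some_ne_zero hxy (eq_zero_of_redTo_zero_of_nsmul_eq_zero
    (reduces_intModel W (IsLocalRing.residue A)) (RedTo.of_notMem hx)
    (natCast_ne_zero_of_liesOverPrime (IsLocalRing.residue A) hq hA hn) hP)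

theorem quot_coeff_mem {A : ValuationSubring Qbar} {q : ℕ} (hq : q.Prime)
    (hA : A.LiesOverPrime q) {G : Type*} [AddCommGroup G] [Fintype G]
    (ι : G →+ (EQ W).toAffine.Point) (hn : ¬ q ∣ Nat.card G) :
    (quot (EQ W) ι).a₄ ∈ A ∧ (quot (EQ W) ι).a₆ ∈ A := by
  have hred := reduces_intModel (K := Qbar) W (IsLocalRing.residue A)
  have hx : ∀ v ∈ xs (EQ W) ι, Res (IsLocalRing.residue A) v
      (if hv : v ∈ A then IsLocalRing.residue A ⟨v, hv⟩ else 0) := by
    intro v hv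
    obtain ⟨u, -, rfl⟩ := mem_image.1 hv
    have hm := coords_mem_of_torsion hq hA hn (P := ι u)
      (by rw [← map_nsmul, card_nsmul_eq_zero', map_zero])
    rw [dif_pos hm]
    exact Res.of_mem _ hm
  have hT : qT (EQ W) ι ∈ A := sum_mem fun v hv => (res_tt hred (hx v hv)).mem
  have hW : qW (EQ W) ι ∈ A := sum_mem fun v hv =>
    ((res_psi hred (hx v hv)).add ((hx v hv).mul (res_tt hred (hx v hv)))).mem
  exact ⟨sub_mem hred.a₄.mem (mul_mem (natCast_mem A 5) hT),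
    sub_mem (sub_mem hred.a₆.mem (mul_mem (res_b₂ hred).mem hT)) (mul_mem (natCast_mem A 7) hW)⟩

theorem eq_of_prime_dvd_den {p : ℕ} (r : ℚ)
    (h : ∀ q : ℕ, q.Prime → q ≠ p → ∀ A : ValuationSubring Qbar, A.LiesOverPrime q → (r : Qbar) ∈ A)
    {q : ℕ} (hq : q.Prime) (hd : q ∣ r.den) : q = p := by
  by_contra hne
  obtain ⟨A, hA⟩ := Gal.exists_liesOverPrime (L := Qbar) hq
  have hr := h q hq hne A hA
  have hmul : (r : Qbar) * ((r.den : ℤ) : Qbar) = ((r.num : ℤ) : Qbar) := by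
    push_cast; exact_mod_cast Rat.mul_den_eq_num r
  have hlt : A.valuation ((r.num : ℤ) : Qbar) < 1 := by
    rw [← hmul, map_mul]
    exact (mul_le_of_le_one_left' ((A.valuation_le_one_iff _).2 hr)).trans_lt
      ((v_intCast_lt_one_iff hq hA).2 (by exact_mod_cast hd))
  have h2 := Nat.dvd_gcd (Int.natCast_dvd.mp ((v_intCast_lt_one_iff hq hA).1 hlt)) hd
  exact hq.not_dvd_one (r.reduced ▸ h2)

end Integrality

section Scale

variable {K : Type*} [Field K] [DecidableEq K] (E : WeierstrassCurve K) {u : K} (hu : u ≠ 0)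

/-- Scaling as a homomorphism. -/
def scaleHom : E.toAffine.Point →+ (scaleCurve E u).toAffine.Point :=
  AddMonoidHom.mk' (scalePoint hu) (scalePoint_add hu)

theorem scaleHom_eq_zero (P : E.toAffine.Point) : scaleHom E hu P = 0 ↔ P = 0 := by
  rcases P with _ | ⟨x, y, h⟩
  · exact iff_of_true (map_zero (scaleHom E hu)) rfl
  · exact iff_of_false (Affine.Point.some_ne_zero _) (Affine.Point.some_ne_zero _)

omit [DecidableEq K] in
theorem scaleCurve_c₄ (E : WeierstrassCurve K) (u : K) :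
    (scaleCurve E u).c₄ = u ^ 4 * E.c₄ := by
  simp only [scaleCurve, WeierstrassCurve.c₄, WeierstrassCurve.b₂, WeierstrassCurve.b₄]
  ring

omit [DecidableEq K] in
theorem scaleCurve_Δ (E : WeierstrassCurve K) (u : K) :
    (scaleCurve E u).Δ = u ^ 12 * E.Δ := by
  simp only [scaleCurve, WeierstrassCurve.Δ, WeierstrassCurve.b₂, WeierstrassCurve.b₄,
    WeierstrassCurve.b₆, WeierstrassCurve.b₈]
  ring

end Scale

/-- The quotient of `W` by a Galois stable subgroup of odd prime power order. -/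
theorem exists_quotient (hΔ : W.Δ ≠ 0) {p : ℕ} (hp : p.Prime) (hp2 : p ≠ 2) {k : ℕ}
    (G : AddSubgroup (EQ W).Point) (hcard : Nat.card G = p ^ k)
    (hst : ∀ σ : GQ, ∀ P ∈ G, σ • P ∈ G) :
    ∃ (W' : WeierstrassCurve ℤ) (φ : (EQ W).Point →+ (EQ W').Point), W'.Δ ≠ 0 ∧
      (∀ (σ : GQ) (P : (EQ W).Point), φ (σ • P) = σ • φ P) ∧
      (∀ P, φ P = 0 ↔ P ∈ G) ∧
      ∀ ℓ : ℕ, ℓ.Prime → ℓ ≠ p → (ℓ : ℤ) ∣ W.Δ → ¬ (ℓ : ℤ) ∣ W.c₄ →
        (ℓ : ℤ) ∣ W'.Δ ∧ ¬ (ℓ : ℤ) ∣ W'.c₄ ∧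
          ∀ A : ValuationSubring Qbar, A.LiesOverPrime ℓ → ∀ P : (EQ W).Point, ∀ n : ℕ,
            ¬ ℓ ∣ n → n • P = 0 → P ∉ G → W.InZeroComponentAt A P →
              W'.InZeroComponentAt A (φ P) := by
  have : Finite G := Nat.finite_of_card_ne_zero (by rw [hcard]; exact pow_ne_zero _ hp.ne_zero)
  have := Fintype.ofFinite G
  have hodd : Odd (Nat.card G) := by rw [hcard]; exact (hp.odd_of_ne_two hp2).pow
  have hι : Function.Injective (G.subtype : G →+ (EQ W).Point) := Subtype.val_injective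
  have hV : (EQ W).Δ ≠ 0 := by
    rw [coeffΔ]; exact_mod_cast hΔ
  have hnq : ∀ q : ℕ, q.Prime → q ≠ p → ¬ q ∣ Nat.card G := fun q hq hne hd =>
    hne ((Nat.prime_dvd_prime_iff_eq hq hp).1 (hq.dvd_of_dvd_pow (hcard ▸ hd)))
  obtain ⟨r₄, r₆, h₄, h₆⟩ := exists_rat_coeffs G hst
  set d : ℕ := r₄.den * r₆.den with hd
  have hdq : ∀ q : ℕ, q.Prime → q ≠ p → ¬ q ∣ d := by
    intro q hq hne hdd
    rcases hq.dvd_mul.1 hdd with h | h
    · exact hne (eq_of_prime_dvd_den r₄ (fun q' hq' hne' A hA =>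
        h₄ ▸ (quot_coeff_mem hq' hA G.subtype (hnq q' hq' hne')).1) hq h)
    · exact hne (eq_of_prime_dvd_den r₆ (fun q' hq' hne' A hA =>
        h₆ ▸ (quot_coeff_mem hq' hA G.subtype (hnq q' hq' hne')).2) hq h)
  let W' : WeierstrassCurve ℤ := ⟨d * W.a₁, (d : ℤ) ^ 2 * W.a₂, (d : ℤ) ^ 3 * W.a₃,
    r₄.num * ((r₄.den : ℤ) ^ 3 * (r₆.den : ℤ) ^ 4), r₆.num * ((r₄.den : ℤ) ^ 6 * (r₆.den : ℤ) ^ 5)⟩
  have hd0 : (d : Qbar) ≠ 0 := Nat.cast_ne_zero.2 (Nat.mul_ne_zero r₄.den_nz r₆.den_nz)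
  have hW' : scaleCurve (quot (EQ W) G.subtype) (d : Qbar) = EQ W' := by
    have e₄ : (r₄ : Qbar) * (r₄.den : Qbar) = (r₄.num : Qbar) := by
      exact_mod_cast Rat.mul_den_eq_num r₄
    have e₆ : (r₆ : Qbar) * (r₆.den : Qbar) = (r₆.num : Qbar) := by
      exact_mod_cast Rat.mul_den_eq_num r₆
    ext
    · rw [coeff₁]; simp [scaleCurve, quot, W']
    · rw [coeff₂]; simp [scaleCurve, quot, W']
    · rw [coeff₃]; simp [scaleCurve, quot, W']
    · rw [coeff₄]
      simp only [scaleCurve, h₄, W', hd]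
      push_cast
      linear_combination ((r₄.den : Qbar) ^ 3 * (r₆.den : Qbar) ^ 4) * e₄
    · rw [coeff₆]
      simp only [scaleCurve, h₆, W', hd]
      push_cast
      linear_combination ((r₄.den : Qbar) ^ 6 * (r₆.den : Qbar) ^ 5) * e₆
  let φ : (EQ W).Point →+ (EQ W').Point := (pointCongr hW').toAddMonoidHom.comp
    ((scaleHom (quot (EQ W) G.subtype) hd0).comp (phiHom hV hι hodd))
  have hφ0 : ∀ P, φ P = 0 ↔ P ∈ G := fun P => by
    show pointCongr hW' (scaleHom _ hd0 (phiHom hV hι hodd P)) = 0 ↔ _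
    rw [AddEquiv.map_eq_zero_iff, scaleHom_eq_zero, phiHom_apply, phiFun_eq_zero_iff]
    exact ⟨fun ⟨u, hu⟩ => hu ▸ u.2, fun hP => ⟨⟨P, hP⟩, rfl⟩⟩
  have hφ : ∀ P, Outside (EQ W) G.subtype P → ∃ hns,
      φ P = .some ((d : Qbar) ^ 2 * qX (EQ W) G.subtype P)
      ((d : Qbar) ^ 3 * qY (EQ W) G.subtype P) hns := fun P hP => by
    have hns := scale_nonsingular (u := (d : Qbar)) hd0 (quot_equation hV hι hodd hP)
    refine ⟨hW' ▸ hns, ?_⟩
    show pointCongr hW' (scalePoint hd0 (phiFun hV hι hodd P)) = _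
    rw [phiFun_of_outside _ _ _ hP]
    exact pointCongr_some hW' hns
  refine ⟨W', φ, ?_, fun σ P => ?_, hφ0, fun ℓ hℓ hne hℓΔ hℓc => ?_⟩
  · have h := scaleCurve_Δ (quot (EQ W) G.subtype) (d : Qbar)
    rw [hW', coeffΔ] at h
    intro h0
    rw [h0, Int.cast_zero] at h
    exact mul_ne_zero (pow_ne_zero _ hd0) (quot_Δ_ne_zero hV hι hodd) h.symm
  · by_cases hP : P ∈ G
    · rw [(hφ0 _).2 (hst σ P hP), (hφ0 P).2 hP]
      exact (map_zero (Affine.Point.map σ.toAlgHom)).symm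
    · have hout : Outside (EQ W) G.subtype P := fun u hu => hP (hu ▸ u.2)
      have hout' : Outside (EQ W) G.subtype (σ • P) := fun u hu => hP (by
        rw [← inv_smul_smul σ P, hu]; exact hst σ⁻¹ _ u.2)
      obtain ⟨n₁, e₁⟩ := hφ P hout
      obtain ⟨n₂, e₂⟩ := hφ _ hout'
      rw [e₁, e₂]
      show _ = Affine.Point.map σ.toAlgHom _
      rw [Affine.Point.map_some, Affine.Point.some.injEq]
      simp [qX_smul G hst, qY_smul G hst]
  · have key : ∀ A : ValuationSubring Qbar, A.LiesOverPrime ℓ →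
        A.valuation (EQ W').Δ < 1 ∧ A.valuation (EQ W').c₄ = 1 := by
      intro A hA
      have hm : MultAt W A ℓ := ⟨hℓ, hA, hℓΔ, hℓc, hΔ⟩
      obtain ⟨-, -, hD, hC⟩ := node_mult hm hι hodd (hnq ℓ hℓ hne)
      have hdv := v_natCast_eq_one hℓ hA (hdq ℓ hℓ hne)
      rw [← hW', scaleCurve_Δ, scaleCurve_c₄, map_mul, map_mul, map_pow, map_pow, hdv, one_pow,
        one_pow, one_mul, one_mul]
      exact ⟨hD, hC⟩
    obtain ⟨A₀, hA₀⟩ := Gal.exists_liesOverPrime (L := Qbar) hℓ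
    refine ⟨?_, ?_, fun A hA P n hn hnP hPG hP0 => ?_⟩
    · rw [← v_intCast_lt_one_iff hℓ hA₀, ← coeffΔ]; exact (key A₀ hA₀).1
    · rw [← v_intCast_lt_one_iff hℓ hA₀, ← coeffc₄, (key A₀ hA₀).2]; exact lt_irrefl _
    have hm : MultAt W A ℓ := ⟨hℓ, hA, hℓΔ, hℓc, hΔ⟩
    have hout : Outside (EQ W) G.subtype P := fun u hu => hPG (hu ▸ u.2)
    obtain ⟨hX, hY, hns⟩ := node_nonsingular hm hι hodd (hnq ℓ hℓ hne) hn hnP
      ((hm.inZeroComponentAt_iff_mem_E0 P).1 hP0) hout (quot_equation hV hι hodd hout).1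
    obtain ⟨hns', e⟩ := hφ P hout
    have hdA : (d : Qbar) ∈ A := natCast_mem A d
    have hxA := mul_mem (pow_mem hdA 2) hX
    have hyA := mul_mem (pow_mem hdA 3) hY
    refine Or.inr ⟨_, _, hns', e, Or.inr ⟨hxA, hyA, ?_⟩⟩
    set π := IsLocalRing.residue A
    have hred := reduces_intModel (K := Qbar) W' π
    have rx := Res.of_mem π hxA
    have ry := Res.of_mem π hyA
    rw [Affine.nonsingular_iff]
    refine ⟨hred.equation hns'.1 rx ry, ?_⟩
    by_contra hcon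
    push Not at hcon
    have hdv : A.valuation (d : Qbar) = 1 := v_natCast_eq_one hℓ hA (hdq ℓ hℓ hne)
    have hc : ∀ j : ℕ, ∀ z : Qbar, Res π ((d : Qbar) ^ j * z) 0 → A.valuation z < 1 :=
      fun j z hz => by
      have := v_lt_one_iff_res.2 hz
      rwa [map_mul, map_pow, hdv, one_pow, one_mul] at this
    have c₁ : (EQ W').a₁ = (d : Qbar) * (quot (EQ W) G.subtype).a₁ := by rw [← hW']; rfl
    have c₂ : (EQ W').a₂ = (d : Qbar) ^ 2 * (quot (EQ W) G.subtype).a₂ := by rw [← hW']; rfl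
    have c₃ : (EQ W').a₃ = (d : Qbar) ^ 3 * (quot (EQ W) G.subtype).a₃ := by rw [← hW']; rfl
    have c₄ : (EQ W').a₄ = (d : Qbar) ^ 4 * (quot (EQ W) G.subtype).a₄ := by rw [← hW']; rfl
    refine hns ⟨hc 4 _ ?_, hc 3 _ ?_⟩
    · have := (hred.a₁.mul ry).sub ((((Res.ofNat 3).mul (rx.pow 2)).add
        (((Res.ofNat 2).mul hred.a₂).mul rx)).add hred.a₄)
      rw [hcon.1, sub_self, c₁, c₂, c₄] at this
      convert this using 1
      ring
    · have := (ry.sub (ry.neg.sub (hred.a₁.mul rx) |>.sub hred.a₃))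
      rw [← hcon.2, sub_self, c₁, c₃] at this
      convert this using 1
      ring

end Fermat.Agent.EC.Quotient
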