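import Fermat.Agent.EC.Torsion.AddSub
import Mathlib.AlgebraicGeometry.EllipticCurve.Affine.Point

/-!
Coordinates of points, the base change of points along a homomorphism of fields, and the identities
for `P + Q` and `P - Q` which underlie the formulas of Vélu for quotient curves.
-/

set_option autoImplicit false

noncomputable section

namespace Fermat.Agent.EC.Quotient

open WeierstrassCurve Fermat.Agent.EC.Torsion

section Coordinates

variable {K : Type*} [Field K] (V : WeierstrassCurve K)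

/-- The abscissa, with junk value `0` at infinity. -/
def cx : V.toAffine.Point → K
  | .zero => 0
  | .some x _ _ => x

/-- The ordinate, with junk value `0` at infinity. -/
def cy : V.toAffine.Point → K
  | .zero => 0
  | .some _ y _ => y

/-- `2y + a₁x + a₃`, with junk value `0` at infinity. -/
def cl : V.toAffine.Point → K
  | .zero => 0
  | .some x y _ => 2 * y + V.a₁ * x + V.a₃

/-- Half the derivative of the right hand side of the completed square. -/
def tt (v : K) : K := 6 * v ^ 2 + V.b₂ * v + V.b₄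

/-- The right hand side of the completed square. -/
def psi (v : K) : K := 4 * v ^ 3 + V.b₂ * v ^ 2 + 2 * V.b₄ * v + V.b₆

@[simp] theorem cx_zero : cx V 0 = 0 := rfl
@[simp] theorem cy_zero : cy V 0 = 0 := rfl
@[simp] theorem cl_zero : cl V 0 = 0 := rfl
@[simp] theorem cx_some {x y : K} (h : V.toAffine.Nonsingular x y) : cx V (.some x y h) = x := rfl
@[simp] theorem cy_some {x y : K} (h : V.toAffine.Nonsingular x y) : cy V (.some x y h) = y := rfl
@[simp] theorem cl_some {x y : K} (h : V.toAffine.Nonsingular x y) :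
    cl V (.some x y h) = 2 * y + V.a₁ * x + V.a₃ := rfl

@[simp] theorem cx_neg (P : V.toAffine.Point) : cx V (-P) = cx V P := by cases P <;> rfl

theorem cl_neg (P : V.toAffine.Point) : cl V (-P) = -cl V P := by
  rcases P with _ | ⟨x, y, h⟩
  · exact neg_zero.symm
  · rw [Affine.Point.neg_some, cl_some, cl_some, Affine.negY]; ring

theorem cl_eq {P : V.toAffine.Point} (hP : P ≠ 0) :
    cl V P = 2 * cy V P + V.a₁ * cx V P + V.a₃ := by
  rcases P with _ | ⟨x, y, h⟩
  · exact absurd rfl hP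
  · rfl

theorem cl_sq (P : V.toAffine.Point) (hP : P ≠ 0) : cl V P ^ 2 = psi V (cx V P) := by
  rcases P with _ | ⟨x, y, h⟩
  · exact absurd rfl hP
  · have he := (Affine.equation_iff x y).mp h.1
    simp only [cl_some, cx_some, psi, b₂, b₄, b₆]
    linear_combination 4 * he

theorem eq_or_eq_neg_of_cx_eq {P Q : V.toAffine.Point} (hP : P ≠ 0) (hQ : Q ≠ 0)
    (h : cx V P = cx V Q) : P = Q ∨ P = -Q := by
  rcases P with _ | ⟨x, y, hp⟩
  · exact absurd rfl hP
  rcases Q with _ | ⟨x', y', hq⟩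
  · exact absurd rfl hQ
  change x = x' at h
  rcases Affine.Y_eq_of_X_eq hp.1 hq.1 h with hy | hy
  · left; simp [h, hy]
  · right; rw [Affine.Point.neg_some]; simp [h, hy]

variable [DecidableEq K]

theorem pair_coords {P Q : V.toAffine.Point} (hP : P ≠ 0) (hQ : Q ≠ 0)
    (hne : cx V P ≠ cx V Q) :
    P + Q ≠ 0 ∧ P - Q ≠ 0 ∧
    cx V (P + Q) + cx V (P - Q) = 2 * cx V Q + tt V (cx V Q) / (cx V P - cx V Q)
        + psi V (cx V Q) / (cx V P - cx V Q) ^ 2 ∧
    cl V (P + Q) + cl V (P - Q) = -(cl V P * (tt V (cx V Q) / (cx V P - cx V Q) ^ 2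
        + 2 * psi V (cx V Q) / (cx V P - cx V Q) ^ 3)) := by
  rcases P with _ | ⟨x₁, y₁, h₁⟩
  · exact absurd rfl hP
  rcases Q with _ | ⟨x₂, y₂, h₂⟩
  · exact absurd rfl hQ
  change x₁ ≠ x₂ at hne
  have hd : x₁ - x₂ ≠ 0 := sub_ne_zero.mpr hne
  rw [sub_eq_add_neg, Affine.Point.neg_some,
    Affine.Point.add_of_X_ne hne, Affine.Point.add_of_X_ne hne]
  refine ⟨Affine.Point.some_ne_zero _, Affine.Point.some_ne_zero _, ?_⟩
  simp only [cx_some]
  set l := V.toAffine.slope x₁ x₂ y₁ y₂ with hl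
  set m := V.toAffine.slope x₁ x₂ y₁ (V.toAffine.negY x₂ y₂) with hm
  rw [Affine.slope_of_X_ne hne] at hl hm
  have hsum : V.toAffine.addX x₁ x₂ l + V.toAffine.addX x₁ x₂ m =
      2 * x₂ + tt V x₂ / (x₁ - x₂) + psi V x₂ / (x₁ - x₂) ^ 2 := by
    have h := sub_sq_mul_addX_add V.toAffine h₁.1 h₂.1 hne
    rw [Affine.slope_of_X_ne hne, Affine.slope_of_X_ne hne, ← hl, ← hm] at h
    field_simp
    simp only [sumForm, tt, psi] at h ⊢
    linear_combination h
  have hdiff : V.toAffine.addX x₁ x₂ m - V.toAffine.addX x₁ x₂ l =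
      (2 * y₁ + V.a₁ * x₁ + V.a₃) * (2 * y₂ + V.a₁ * x₂ + V.a₃) / (x₁ - x₂) ^ 2 := by
    simp only [Affine.addX, hl, hm, Affine.negY]
    field_simp
    ring
  refine ⟨hsum, ?_⟩
  have he := (Affine.equation_iff x₂ y₂).mp h₂.1
  have hψ : psi V x₂ = (2 * y₂ + V.a₁ * x₂ + V.a₃) ^ 2 := by
    simp only [psi, b₂, b₄, b₆]
    linear_combination -4 * he
  have hcl : ∀ (k : K) (h : V.toAffine.Nonsingular (V.toAffine.addX x₁ x₂ k)
      (V.toAffine.addY x₁ x₂ y₁ k)), cl V (.some _ _ h) =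
      -((2 * k + V.a₁) * (V.toAffine.addX x₁ x₂ k - x₁) + (2 * y₁ + V.a₁ * x₁ + V.a₃)) := by
    intro k h
    simp only [cl_some, Affine.addY, Affine.negAddY, Affine.negY]
    ring
  rw [hcl, hcl, cl_some]
  clear hcl
  rw [show V.toAffine.slope x₁ x₂ y₁ y₂ = l from rfl,
    show V.toAffine.slope x₁ x₂ y₁ (V.toAffine.negY x₂ y₂) = m from rfl]
  set xp := V.toAffine.addX x₁ x₂ l
  set xm := V.toAffine.addX x₁ x₂ m
  clear_value xp xm l m
  have hlY : (2 * l + V.a₁) * (x₁ - x₂) =
      (2 * y₁ + V.a₁ * x₁ + V.a₃) - (2 * y₂ + V.a₁ * x₂ + V.a₃) := by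
    rw [hl]; field_simp; ring
  have hmY : (2 * m + V.a₁) * (x₁ - x₂) =
      (2 * y₁ + V.a₁ * x₁ + V.a₃) + (2 * y₂ + V.a₁ * x₂ + V.a₃) := by
    rw [hm, Affine.negY]; field_simp; ring
  field_simp at hsum hdiff ⊢
  linear_combination (-(x₁ - x₂) ^ 2 * (xp - x₁)) * hlY + (-(x₁ - x₂) ^ 2 * (xm - x₁)) * hmY
    - (2 * y₁ + V.a₁ * x₁ + V.a₃) * hsum - (2 * y₂ + V.a₁ * x₂ + V.a₃) * hdiff
    + (2 * y₁ + V.a₁ * x₁ + V.a₃) * hψ

end Coordinates

section Map

variable {K L : Type*} [Field K] [Field L] [DecidableEq K] [DecidableEq L]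
  (V : WeierstrassCurve K) (f : K →+* L)

/-- Base change of points along a homomorphism of fields. -/
def mapPt : V.toAffine.Point →+ (V.map f).toAffine.Point :=
  letI := f.toAlgebra
  Affine.Point.map (W' := V.toAffine) (F := K) (K := L) (Algebra.ofId K L)

theorem mapPt_some {x y : K} (h : V.toAffine.Nonsingular x y) :
    mapPt V f (.some x y h) = .some (f x) (f y)
      ((WeierstrassCurve.Affine.map_nonsingular (W := V.toAffine) f.injective x y).mpr h) :=
  rfl

theorem mapPt_injective : Function.Injective (mapPt V f) := by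
  let := f.toAlgebra
  exact Affine.Point.map_injective (W' := V.toAffine) (F := K) (K := L) (Algebra.ofId K L)

theorem cx_mapPt (P : V.toAffine.Point) : cx _ (mapPt V f P) = f (cx V P) := by
  rcases P with _ | ⟨x, y, h⟩
  · exact (map_zero f).symm
  · rfl

theorem cy_mapPt (P : V.toAffine.Point) : cy _ (mapPt V f P) = f (cy V P) := by
  rcases P with _ | ⟨x, y, h⟩
  · exact (map_zero f).symm
  · rfl

theorem cl_mapPt (P : V.toAffine.Point) : cl _ (mapPt V f P) = f (cl V P) := by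
  rcases P with _ | ⟨x, y, h⟩
  · exact (map_zero f).symm
  · show 2 * f y + f V.a₁ * f x + f V.a₃ = f (2 * y + V.a₁ * x + V.a₃)
    simp only [map_add, map_mul, map_ofNat]

end Map

end Fermat.Agent.EC.Quotient
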