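import Fermat.Agent.EC.Quotient.Point
import Mathlib.Algebra.BigOperators.Group.Finset.Basic
import Mathlib.Algebra.Polynomial.Roots
import Mathlib.Algebra.Polynomial.BigOperators

/-!
Sums of coordinates over the translates of a point by a finite subgroup of odd order, the formulas
of Vélu for them, and the fibres of the resulting rational function.
-/

set_option autoImplicit false

noncomputable section

namespace Fermat.Agent.EC.Quotient

open WeierstrassCurve Finset
open scoped Classical

variable {K : Type*} [Field K] [DecidableEq K] (V : WeierstrassCurve K)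
variable {G : Type*} [AddCommGroup G] [Fintype G] (ι : G →+ V.toAffine.Point)

/-- The abscissae of the nonzero points of the subgroup. -/
def xs : Finset K := (univ.filter fun u : G => u ≠ 0).image fun u => cx V (ι u)

/-- The first invariant of Vélu. -/
def qT : K := ∑ v ∈ xs V ι, tt V v

/-- The second invariant of Vélu. -/
def qW : K := ∑ v ∈ xs V ι, (psi V v + v * tt V v)

/-- The quotient curve of Vélu. -/
def quot : WeierstrassCurve K :=
  ⟨V.a₁, V.a₂, V.a₃, V.a₄ - 5 * qT V ι, V.a₆ - V.b₂ * qT V ι - 7 * qW V ι⟩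

/-- The abscissa of the image of a point. -/
def qX (P : V.toAffine.Point) : K := ∑ u : G, cx V (P + ι u) - ∑ u : G, cx V (ι u)

/-- The ordinate of the image of a point. -/
def qY (P : V.toAffine.Point) : K := ∑ u : G, cy V (P + ι u) - ∑ u : G, cy V (ι u)

/-- `2y + a₁x + a₃` of the image of a point. -/
def qL (P : V.toAffine.Point) : K := ∑ u : G, cl V (P + ι u)

/-- The failure of the image of a point to lie on the quotient curve. -/
def defect (P : V.toAffine.Point) : K :=
  qL V ι P ^ 2 - (4 * qX V ι P ^ 3 + V.b₂ * qX V ι P ^ 2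
    + 2 * (V.b₄ - 10 * qT V ι) * qX V ι P + (V.b₆ - 4 * V.b₂ * qT V ι - 28 * qW V ι))

theorem quot_psi (X : K) : psi (quot V ι) X = 4 * X ^ 3 + V.b₂ * X ^ 2
    + 2 * (V.b₄ - 10 * qT V ι) * X + (V.b₆ - 4 * V.b₂ * qT V ι - 28 * qW V ι) := by
  simp only [psi, quot, b₂, b₄, b₆]
  ring

theorem qX_add (P : V.toAffine.Point) (w : G) : qX V ι (P + ι w) = qX V ι P := by
  rw [qX, qX]
  congr 1
  refine Fintype.sum_equiv (Equiv.addLeft w) _ _ fun u => ?_
  simp [add_assoc]

theorem qY_add (P : V.toAffine.Point) (w : G) : qY V ι (P + ι w) = qY V ι P := by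
  rw [qY, qY]
  congr 1
  refine Fintype.sum_equiv (Equiv.addLeft w) _ _ fun u => ?_
  simp [add_assoc]

theorem qL_add (P : V.toAffine.Point) (w : G) : qL V ι (P + ι w) = qL V ι P :=
  Fintype.sum_equiv (Equiv.addLeft w) _ _ fun u => by simp [add_assoc]

theorem defect_add (P : V.toAffine.Point) (w : G) : defect V ι (P + ι w) = defect V ι P := by
  rw [defect, defect, qX_add, qL_add]

theorem qX_neg (P : V.toAffine.Point) : qX V ι (-P) = qX V ι P := by
  rw [qX, qX]
  congr 1
  refine Fintype.sum_equiv (Equiv.neg G) _ _ fun u => ?_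
  rw [← cx_neg V (P + ι ((Equiv.neg G) u))]
  simp [add_comm]

theorem qL_neg (P : V.toAffine.Point) : qL V ι (-P) = -qL V ι P := by
  rw [qL, qL, ← sum_neg_distrib]
  refine Fintype.sum_equiv (Equiv.neg G) _ _ fun u => ?_
  rw [← cl_neg V (P + ι ((Equiv.neg G) u))]
  simp [add_comm]

theorem defect_neg (P : V.toAffine.Point) : defect V ι (-P) = defect V ι P := by
  rw [defect, defect, qX_neg, qL_neg, neg_sq]

/-- A point outside the subgroup. -/
def Outside (P : V.toAffine.Point) : Prop := ∀ u : G, P ≠ ι u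

variable {V ι}

omit [Fintype G] in
theorem Outside.ne_zero {P : V.toAffine.Point} (h : Outside V ι P) : P ≠ 0 := by
  simpa using h 0

omit [Fintype G] in
theorem Outside.add {P : V.toAffine.Point} (h : Outside V ι P) (u : G) :
    Outside V ι (P + ι u) := fun w hw => h (w - u) (by rw [map_sub, ← hw, add_sub_cancel_right])

omit [Fintype G] in
theorem Outside.neg {P : V.toAffine.Point} (h : Outside V ι P) : Outside V ι (-P) :=
  fun u hu => h (-u) (by rw [map_neg, ← hu, neg_neg])

omit [Fintype G] in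
theorem Outside.add_ne_zero {P : V.toAffine.Point} (h : Outside V ι P) (u : G) : P + ι u ≠ 0 :=
  (h.add u).ne_zero

variable (hι : Function.Injective ι) (hodd : Odd (Nat.card G))

omit [Fintype G] in
include hodd in
theorem ne_neg_self {u : G} (hu : u ≠ 0) : u ≠ -u := fun h => hu <| by
  have h2 : 2 • u = 0 := by rw [two_nsmul]; exact add_eq_zero_iff_eq_neg.mpr h
  obtain ⟨k, hk⟩ := hodd
  have := card_nsmul_eq_zero' (G := G) (x := u)
  rwa [hk, add_nsmul, mul_comm 2 k, mul_nsmul', h2, nsmul_zero, zero_add, one_nsmul] at this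

omit [Fintype G] in
include hι in
theorem ι_ne_zero {u : G} (hu : u ≠ 0) : ι u ≠ 0 := fun h => hu (hι (h.trans (map_zero ι).symm))

omit [Fintype G] in
include hι in
theorem cx_ι_eq_iff {u w : G} (hu : u ≠ 0) (hw : w ≠ 0) :
    cx V (ι u) = cx V (ι w) ↔ u = w ∨ u = -w := by
  constructor
  · intro h
    rcases eq_or_eq_neg_of_cx_eq V (ι_ne_zero hι hu) (ι_ne_zero hι hw) h with h | h
    · exact Or.inl (hι h)
    · exact Or.inr (hι (by rw [h, map_neg]))
  · rintro (rfl | rfl) <;> simp [map_neg]

include hι hodd in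
theorem sum_ne_zero_eq {M : Type*} [AddCommMonoid M] (F : K → M) :
    ∑ u ∈ univ.filter (fun u : G => u ≠ 0), F (cx V (ι u)) = 2 • ∑ v ∈ xs V ι, F v := by
  rw [← sum_nsmul, xs]
  refine (sum_fiberwise_of_maps_to (t := (univ.filter fun u : G => u ≠ 0).image fun u => cx V (ι u))
    (fun u hu => mem_image_of_mem _ hu) _).symm.trans (sum_congr rfl fun v hv => ?_)
  obtain ⟨w, hw, rfl⟩ := mem_image.mp hv
  rw [mem_filter] at hw
  have : (univ.filter fun u : G => u ≠ 0).filter (fun u => cx V (ι u) = cx V (ι w)) = {w, -w} := by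
    ext u
    simp only [mem_filter, mem_univ, true_and, mem_insert, mem_singleton]
    constructor
    · exact fun ⟨hu, h⟩ => (cx_ι_eq_iff hι hu hw.2).mp h
    · rintro (rfl | rfl)
      · exact ⟨hw.2, rfl⟩
      · exact ⟨neg_ne_zero.mpr hw.2, by simp⟩
  rw [this, sum_pair (ne_neg_self hodd hw.2)]
  simp [two_nsmul]

include hι hodd in
theorem card_eq : Fintype.card G = 2 * (xs V ι).card + 1 := by
  have h := sum_ne_zero_eq hι hodd fun _ => 1
  simp only [sum_const, smul_eq_mul, mul_one, filter_ne', card_erase_of_mem, mem_univ,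
    card_univ] at h
  have : 0 < Fintype.card G := Fintype.card_pos
  omega

include hι in
theorem Outside.cx_notMem {P : V.toAffine.Point} (h : Outside V ι P) : cx V P ∉ xs V ι := by
  intro hm
  obtain ⟨u, hu, hx⟩ := mem_image.mp hm
  rw [mem_filter] at hu
  rcases eq_or_eq_neg_of_cx_eq V (ι_ne_zero hι hu.2) h.ne_zero hx with he | he
  · exact h u he.symm
  · exact h (-u) (by rw [map_neg, he, neg_neg])

include hι in
theorem Outside.pair {P : V.toAffine.Point} (h : Outside V ι P) {u : G} (hu : u ≠ 0) :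
    cx V (P + ι u) + cx V (P + ι (-u)) = 2 * cx V (ι u) + tt V (cx V (ι u)) / (cx V P - cx V (ι u))
        + psi V (cx V (ι u)) / (cx V P - cx V (ι u)) ^ 2 ∧
    cl V (P + ι u) + cl V (P + ι (-u)) = -(cl V P * (tt V (cx V (ι u)) / (cx V P - cx V (ι u)) ^ 2
        + 2 * psi V (cx V (ι u)) / (cx V P - cx V (ι u)) ^ 3)) := by
  have hne : cx V P ≠ cx V (ι u) := fun he =>
    h.cx_notMem hι (he ▸ mem_image_of_mem _ (by simp [hu]))
  obtain ⟨-, -, h1, h2⟩ := pair_coords V h.ne_zero (ι_ne_zero hι hu) hne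
  rw [map_neg, ← sub_eq_add_neg]
  exact ⟨h1, h2⟩

variable [NeZero (2 : K)]

include hι hodd in
theorem qX_eq {P : V.toAffine.Point} (h : Outside V ι P) :
    qX V ι P = cx V P + ∑ v ∈ xs V ι, (tt V v / (cx V P - v) + psi V v / (cx V P - v) ^ 2) := by
  refine mul_left_cancel₀ (NeZero.ne (2 : K)) ?_
  set s := univ.filter (fun u : G => u ≠ 0)
  have hs : s = univ.erase 0 := filter_ne' univ 0
  have e : qX V ι P = cx V P + ∑ u ∈ s, (cx V (P + ι u) - cx V (ι u)) := by
    rw [qX, ← add_sum_erase _ _ (mem_univ (0 : G)), ← add_sum_erase _ _ (mem_univ (0 : G)),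
      sum_sub_distrib, hs]
    simp
    ring
  have e2 : ∑ u ∈ s, (cx V (P + ι u) - cx V (ι u))
      = ∑ u ∈ s, (cx V (P + ι (-u)) - cx V (ι u)) := by
    refine sum_nbij' (fun u => -u) (fun u => -u) (fun u hu => by simpa [s] using hu)
      (fun u hu => by simpa [s] using hu) (fun u _ => neg_neg u) (fun u _ => neg_neg u) ?_
    intro u _
    simp
  rw [e, mul_add, two_mul (∑ u ∈ s, _)]
  nth_rewrite 2 [e2]
  rw [← sum_add_distrib, two_mul (cx V P), mul_add, two_mul (cx V P)]
  congr 1
  rw [two_mul, ← two_nsmul, ← sum_ne_zero_eq hι hodd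
    fun v => tt V v / (cx V P - v) + psi V v / (cx V P - v) ^ 2]
  refine sum_congr rfl fun u hu => ?_
  linear_combination (h.pair hι (mem_filter.mp hu).2).1

include hι hodd in
theorem qL_eq {P : V.toAffine.Point} (h : Outside V ι P) :
    qL V ι P = cl V P * (1 - ∑ v ∈ xs V ι,
      (tt V v / (cx V P - v) ^ 2 + 2 * psi V v / (cx V P - v) ^ 3)) := by
  refine mul_left_cancel₀ (NeZero.ne (2 : K)) ?_
  set s := univ.filter (fun u : G => u ≠ 0)
  have hs : s = univ.erase 0 := filter_ne' univ 0
  have e : qL V ι P = cl V P + ∑ u ∈ s, cl V (P + ι u) := by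
    rw [qL, ← add_sum_erase _ _ (mem_univ (0 : G)), hs]; simp
  have e2 : ∑ u ∈ s, cl V (P + ι u) = ∑ u ∈ s, cl V (P + ι (-u)) := by
    refine sum_nbij' (fun u => -u) (fun u => -u) (fun u hu => by simpa [s] using hu)
      (fun u hu => by simpa [s] using hu) (fun u _ => neg_neg u) (fun u _ => neg_neg u) ?_
    intro u _
    simp
  rw [e, mul_add, two_mul (∑ u ∈ s, _)]
  nth_rewrite 2 [e2]
  rw [← sum_add_distrib, sum_congr rfl fun u hu => (h.pair hι (mem_filter.mp hu).2).2,
    sum_neg_distrib, ← mul_sum, sum_ne_zero_eq hι hodd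
    (fun v => tt V v / (cx V P - v) ^ 2 + 2 * psi V v / (cx V P - v) ^ 3), two_nsmul]
  ring

include hι in
/-- `2y + a₁x + a₃` of the image. -/
theorem qL_eq_qY {P : V.toAffine.Point} (h : Outside V ι P) :
    qL V ι P = 2 * qY V ι P + V.a₁ * qX V ι P + V.a₃ := by
  have h0 : ∑ u : G, cl V (ι u) = 0 := by
    have : ∑ u : G, cl V (ι u) = -∑ u : G, cl V (ι u) := by
      rw [← sum_neg_distrib]
      exact Fintype.sum_equiv (Equiv.neg G) _ _ fun u => by simp [cl_neg]
    refine mul_left_cancel₀ (NeZero.ne (2 : K)) ?_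
    linear_combination this
  have h1 : ∑ u : G, cl V (ι u) =
      2 * ∑ u : G, cy V (ι u) + V.a₁ * ∑ u : G, cx V (ι u) + (Fintype.card G - 1) * V.a₃ := by
    rw [← add_sum_erase _ _ (mem_univ (0 : G)), map_zero, cl_zero, zero_add,
      sum_congr rfl fun u hu => cl_eq V (ι_ne_zero hι (ne_of_mem_erase hu)),
      ← add_sum_erase _ (fun u => cy V (ι u)) (mem_univ (0 : G)),
      ← add_sum_erase _ (fun u => cx V (ι u)) (mem_univ (0 : G))]
    simp only [sum_add_distrib, ← mul_sum, sum_const, map_zero, cy_zero, cx_zero, zero_add,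
      card_erase_of_mem (mem_univ (0 : G)), card_univ, nsmul_eq_mul,
      Nat.cast_sub (Fintype.card_pos (α := G) : 1 ≤ Fintype.card G), Nat.cast_one]
  have h2 : qL V ι P = 2 * ∑ u : G, cy V (P + ι u) + V.a₁ * ∑ u : G, cx V (P + ι u) +
      Fintype.card G * V.a₃ := by
    rw [qL, sum_congr rfl fun u _ => cl_eq V (h.add_ne_zero u)]
    simp only [sum_add_distrib, ← mul_sum, sum_const, card_univ, nsmul_eq_mul]
  rw [h2, qY, qX]
  linear_combination h0 - h1

/-- The numerator of `qX - c`. -/
def fibrePoly (s : Finset K) (t u : K → K) (c : K) : Polynomial K :=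
  (Polynomial.X - Polynomial.C c) * (∏ v ∈ s, (Polynomial.X - Polynomial.C v)) ^ 2 +
    ∑ v ∈ s, (Polynomial.C (t v) * (Polynomial.X - Polynomial.C v) + Polynomial.C (u v)) *
      (∏ w ∈ s.erase v, (Polynomial.X - Polynomial.C w)) ^ 2

omit [NeZero (2 : K)] in
open Polynomial in
theorem fibrePoly_monic (s : Finset K) (t u : K → K) (c : K) :
    (fibrePoly s t u c).natDegree = 2 * s.card + 1 := by
  rw [fibrePoly]
  have hP : ∀ r : Finset K, ((∏ v ∈ r, (X - C v)) ^ 2).natDegree = 2 * r.card := fun r => by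
    rw [natDegree_pow, natDegree_prod_of_monic _ _ fun v _ => monic_X_sub_C v]
    simp
  have hmain : ((X - C c) * (∏ v ∈ s, (X - C v)) ^ 2).natDegree = 2 * s.card + 1 := by
    rw [(monic_X_sub_C c).natDegree_mul
      ((monic_prod_of_monic _ _ fun v _ => monic_X_sub_C v).pow 2),
      hP, natDegree_X_sub_C, add_comm]
  rw [natDegree_add_eq_left_of_natDegree_lt, hmain]
  rw [hmain]
  refine lt_of_le_of_lt (natDegree_sum_le_of_forall_le _ _ (n := 2 * s.card) fun v hv => ?_)
    (by omega)
  refine le_trans natDegree_mul_le ?_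
  rw [hP, card_erase_of_mem hv]
  have : (C (t v) * (X - C v) + C (u v)).natDegree ≤ 1 := by compute_degree
  have : 0 < s.card := card_pos.mpr ⟨v, hv⟩
  omega

omit [NeZero (2 : K)] in
theorem fibrePoly_eval (s : Finset K) (t u : K → K) (c x : K) (hx : x ∉ s) :
    (fibrePoly s t u c).eval x = (x + ∑ v ∈ s, (t v / (x - v) + u v / (x - v) ^ 2) - c)
      * (∏ v ∈ s, (x - v)) ^ 2 := by
  rw [fibrePoly]
  simp only [Polynomial.eval_add, Polynomial.eval_mul, Polynomial.eval_sub, Polynomial.eval_X,
    Polynomial.eval_C, Polynomial.eval_pow, Polynomial.eval_prod, Polynomial.eval_finsetSum]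
  rw [add_sub_right_comm, add_mul, sum_mul]
  congr 1
  refine sum_congr rfl fun v hv => ?_
  have hne : x - v ≠ 0 := sub_ne_zero.mpr fun e => hx (e ▸ hv)
  rw [← mul_prod_erase _ _ hv]
  field_simp

include hι hodd in
/-- The fibres of `qX` consist of translates of a point and of its negative. -/
theorem exists_of_qX_eq {P P' : V.toAffine.Point} (h : Outside V ι P) (h' : Outside V ι P')
    (he : qX V ι P = qX V ι P') : ∃ u : G, P' = P + ι u ∨ P' = -P + ι u := by
  by_contra hcon
  push Not at hcon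
  let R : V.toAffine.Point → Finset K := fun Q => univ.image fun u : G => cx V (Q + ι u)
  have hR : ∀ Q : V.toAffine.Point, Outside V ι Q → Fintype.card G < 2 * (R Q).card := by
    intro Q hQ
    have hle : Fintype.card G ≤ 2 * (R Q).card := by
      rw [← card_univ]
      refine card_le_mul_card_image _ 2 fun x hx => ?_
      obtain ⟨w, -, rfl⟩ := mem_image.mp hx
      refine (card_le_card (t := {w} ∪ univ.filter (fun u => ι u = -(Q + ι w) - Q))
        fun u hu => ?_).trans ((card_union_le _ _).trans ?_)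
      · rcases eq_or_eq_neg_of_cx_eq V (hQ.add_ne_zero u) (hQ.add_ne_zero w) (mem_filter.mp hu).2
          with he | he
        · simp [hι (add_left_cancel he)]
        · refine mem_union_right _ (mem_filter.mpr ⟨mem_univ _, ?_⟩)
          rw [← he]; abel
      · rw [card_singleton]
        have : (univ.filter (fun u => ι u = -(Q + ι w) - Q)).card ≤ 1 := card_le_one.mpr
          fun a ha b hb => hι ((mem_filter.mp ha).2.trans (mem_filter.mp hb).2.symm)
        omega
    rw [Nat.card_eq_fintype_card] at hodd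
    obtain ⟨k, hk⟩ := hodd
    omega
  have hd : Disjoint (R P) (R P') := by
    rw [disjoint_left]
    intro x hx hx'
    obtain ⟨u, -, rfl⟩ := mem_image.mp hx
    obtain ⟨w, -, hw⟩ := mem_image.mp hx'
    rcases eq_or_eq_neg_of_cx_eq V (h'.add_ne_zero w) (h.add_ne_zero u) hw with he | he
    · exact (hcon (u - w)).1 (by rw [map_sub, eq_sub_of_add_eq he]; abel)
    · exact (hcon (-u - w)).2 (by rw [map_sub, map_neg, eq_sub_of_add_eq he]; abel)
  set F := fibrePoly (xs V ι) (tt V) (psi V) (qX V ι P) with hF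
  have hdeg : F.natDegree = Fintype.card G := by rw [hF, fibrePoly_monic, card_eq hι hodd]
  have hroot : ∀ Q : V.toAffine.Point, Outside V ι Q → qX V ι Q = qX V ι P → ∀ x ∈ R Q,
      F.eval x = 0 := by
    intro Q hQ hQP x hx
    obtain ⟨u, -, rfl⟩ := mem_image.mp hx
    rw [hF, fibrePoly_eval _ _ _ _ _ ((hQ.add u).cx_notMem hι), ← qX_eq hι hodd (hQ.add u),
      qX_add, hQP, sub_self, zero_mul]
  have h0 : F = 0 := Polynomial.eq_zero_of_natDegree_lt_card_of_eval_eq_zero' F (R P ∪ R P')
    (fun x hx => (mem_union.mp hx).elim (hroot P h rfl x) (hroot P' h' he.symm x)) (by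
      rw [card_union_of_disjoint hd, hdeg]
      have := hR P h
      have := hR P' h'
      omega)
  have : 0 < Fintype.card G := Fintype.card_pos
  rw [h0, Polynomial.natDegree_zero] at hdeg
  omega

end Fermat.Agent.EC.Quotient
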